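import Mathlib

/-!
# S52 / E7-AWAY: semistability of the deformed curve away from the modulus

Self-contained facts on Klein's icosahedral forms `f` (degree 12), `H` (degree 20), `T`
(degree 30) as polynomial functions on a commutative ring:

* `kT_sq_add_kH_cube` : `T ^ 2 + H ^ 3 = 1728 * f ^ 5`;
* `euler_det` : `x * w_y - y * w_x = -12 * f` for `w = (f_y, -f_x)`;
* `bezout_Y`, `bezout_X` : an exact Bezout relation between `f / (x y)` and `H` with constant
  `5 ^ 5`, hence `eq_zero_of_kf_kH` : over a field in which `5 ≠ 0` the forms `f` and `H` have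
  no common zero except the origin;
* `away` : for `f (x, y) ≠ 0` and `(n, m) ≠ (0, 0)` the vector `u = n • v + m • w v`
  is never a common zero of `H` and `T`;
* `not_dvd_c4_of_dvd_disc` : the integer form used for the semistability of the new model
  at the primes not dividing the modulus.
-/

set_option autoImplicit false

namespace Fermat.Agent.S52.H93

section Forms

variable {R : Type*} [CommRing R]

/-- Klein's icosahedral form of degree 12. -/
def kf (x y : R) : R := x * y * (x ^ 10 + 11 * x ^ 5 * y ^ 5 - y ^ 10)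

/-- Klein's form of degree 20 (normalised Hessian of `kf`). -/
def kH (x y : R) : R :=
  -(x ^ 20 + y ^ 20) + 228 * (x ^ 15 * y ^ 5 - x ^ 5 * y ^ 15) - 494 * x ^ 10 * y ^ 10

/-- Klein's form of degree 30 (normalised Jacobian of `kf` and `kH`). -/
def kT (x y : R) : R :=
  x ^ 30 + y ^ 30 + 522 * (x ^ 25 * y ^ 5 - x ^ 5 * y ^ 25)
    - 10005 * (x ^ 20 * y ^ 10 + x ^ 10 * y ^ 20)

/-- First coordinate of `w = (f_y, -f_x)`. -/
def kwx (x y : R) : R := x ^ 11 + 66 * x ^ 6 * y ^ 5 - 11 * x * y ^ 10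

/-- Second coordinate of `w = (f_y, -f_x)`. -/
def kwy (x y : R) : R := -(11 * x ^ 10 * y) - 66 * x ^ 5 * y ^ 6 + y ^ 11

theorem kT_sq_add_kH_cube (x y : R) : kT x y ^ 2 + kH x y ^ 3 = 1728 * kf x y ^ 5 := by
  simp only [kT, kH, kf]
  ring

theorem euler_det (x y : R) : x * kwy x y - y * kwx x y = -12 * kf x y := by
  simp only [kwx, kwy, kf]
  ring

theorem bezout_Y (x y : R) :
    (-(11 * x ^ 15) + 2507 * x ^ 10 * y ^ 5 - 5206 * x ^ 5 * y ^ 10 - 3003 * y ^ 15)
        * (x ^ 10 + 11 * x ^ 5 * y ^ 5 - y ^ 10)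
      - (11 * x ^ 5 + 122 * y ^ 5) * kH x y = 3125 * y ^ 25 := by
  simp only [kH]
  ring

theorem bezout_X (x y : R) :
    (3003 * x ^ 15 - 5206 * x ^ 10 * y ^ 5 - 2507 * x ^ 5 * y ^ 10 - 11 * y ^ 15)
        * (x ^ 10 + 11 * x ^ 5 * y ^ 5 - y ^ 10)
      - (122 * x ^ 5 - 11 * y ^ 5) * kH x y = 3125 * x ^ 25 := by
  simp only [kH]
  ring

end Forms

section Field

variable {k : Type*} [Field k]

/-- Over a field in which `5 ≠ 0`, the forms `f` and `H` have no common zero but the origin. -/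
theorem eq_zero_of_kf_kH (h5 : (5 : k) ≠ 0) {x y : k} (hf : kf x y = 0) (hH : kH x y = 0) :
    x = 0 ∧ y = 0 := by
  have h3125 : (3125 : k) ≠ 0 := by
    have : (3125 : k) = 5 ^ 5 := by norm_num
    rw [this]
    exact pow_ne_zero 5 h5
  have hf' := hf
  unfold kf at hf'
  rcases mul_eq_zero.mp hf' with hxy | hp
  · rcases mul_eq_zero.mp hxy with hx | hy
    · subst hx
      refine ⟨rfl, ?_⟩
      have h : kH (0 : k) y = -(y ^ 20) := by simp only [kH]; ring
      rw [h] at hH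
      exact pow_eq_zero_iff (by norm_num) |>.mp (neg_eq_zero.mp hH)
    · subst hy
      refine ⟨?_, rfl⟩
      have h : kH x (0 : k) = -(x ^ 20) := by simp only [kH]; ring
      rw [h] at hH
      exact pow_eq_zero_iff (by norm_num) |>.mp (neg_eq_zero.mp hH)
  · have hY := bezout_Y x y
    have hX := bezout_X x y
    rw [hp, hH] at hY hX
    simp only [mul_zero, sub_zero] at hY hX
    have hy : y ^ 25 = 0 := by
      rcases mul_eq_zero.mp hY.symm with h | h
      · exact absurd h h3125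
      · exact h
    have hx : x ^ 25 = 0 := by
      rcases mul_eq_zero.mp hX.symm with h | h
      · exact absurd h h3125
      · exact h
    exact ⟨pow_eq_zero_iff (by norm_num) |>.mp hx, pow_eq_zero_iff (by norm_num) |>.mp hy⟩

/-- For `f v ≠ 0` and `(n, m) ≠ (0, 0)`, the vector `u = n • v + m • w v` is not a common
zero of `H` and `T` (fields with `2, 3, 5 ≠ 0`). -/
theorem away (h2 : (2 : k) ≠ 0) (h3 : (3 : k) ≠ 0) (h5 : (5 : k) ≠ 0) {x y n m : k}
    (hf : kf x y ≠ 0) (hnm : n ≠ 0 ∨ m ≠ 0) :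
    ¬ (kH (n * x + m * kwx x y) (n * y + m * kwy x y) = 0 ∧
       kT (n * x + m * kwx x y) (n * y + m * kwy x y) = 0) := by
  rintro ⟨hH, hT⟩
  have h1728 : (1728 : k) ≠ 0 := by
    have : (1728 : k) = 2 ^ 6 * 3 ^ 3 := by norm_num
    rw [this]
    exact mul_ne_zero (pow_ne_zero 6 h2) (pow_ne_zero 3 h3)
  have h12 : (12 : k) ≠ 0 := by
    have : (12 : k) = 2 ^ 2 * 3 := by norm_num
    rw [this]
    exact mul_ne_zero (pow_ne_zero 2 h2) h3
  have hrel := kT_sq_add_kH_cube (n * x + m * kwx x y) (n * y + m * kwy x y)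
  rw [hH, hT] at hrel
  have hfu : kf (n * x + m * kwx x y) (n * y + m * kwy x y) = 0 := by
    have h0 : (1728 : k) * kf (n * x + m * kwx x y) (n * y + m * kwy x y) ^ 5 = 0 := by
      rw [← hrel]; ring
    rcases mul_eq_zero.mp h0 with h | h
    · exact absurd h h1728
    · exact pow_eq_zero_iff (by norm_num) |>.mp h
  obtain ⟨hux, huy⟩ := eq_zero_of_kf_kH h5 hfu hH
  have hdet := euler_det x y
  have hn : n * (x * kwy x y - y * kwx x y) = 0 := by
    linear_combination kwy x y * hux - kwx x y * huy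
  have hm : m * (x * kwy x y - y * kwx x y) = 0 := by
    linear_combination x * huy - y * hux
  have hdne : x * kwy x y - y * kwx x y ≠ 0 := by
    rw [hdet]
    exact mul_ne_zero (neg_ne_zero.mpr h12) hf
  rcases hnm with h | h
  · exact h ((mul_eq_zero.mp hn).resolve_right hdne)
  · exact h ((mul_eq_zero.mp hm).resolve_right hdne)

/-- **Integer form.** Let `p ∉ {2, 3, 5}` be a prime, `k` a field of characteristic `p`,
`(x₀, y₀)` a point of `k²` with `H = -c₄`, `T = -c₆` (the invariants of the given curve, whose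
discriminant `D` is prime to `p`), and let `C₄, C₆` be integers whose images in `k` are
`-H (u)`, `-T (u)` for `u = n • v₀ + M • w v₀` with `p ∤ M`. Then the curve with invariants
`(C₄, C₆)` and discriminant `D'` is semistable at `p`: if `p ∣ D'` then `p ∤ C₄`. -/
theorem not_dvd_c4_of_dvd_disc {p : ℕ} [Fact p.Prime] (hp2 : p ≠ 2) (hp3 : p ≠ 3) (hp5 : p ≠ 5)
    {k : Type*} [Field k] [CharP k p] {x₀ y₀ : k} {c₄ c₆ D n M C₄ C₆ D' : ℤ}
    (hH₀ : kH x₀ y₀ = -(c₄ : k)) (hT₀ : kT x₀ y₀ = -(c₆ : k))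
    (hD : 1728 * D = c₄ ^ 3 - c₆ ^ 2) (hpD : ¬ (p : ℤ) ∣ D) (hpM : ¬ (p : ℤ) ∣ M)
    (hC₄ : (C₄ : k) = -kH ((n : k) * x₀ + (M : k) * kwx x₀ y₀) ((n : k) * y₀ + (M : k) * kwy x₀ y₀))
    (hC₆ : (C₆ : k) = -kT ((n : k) * x₀ + (M : k) * kwx x₀ y₀) ((n : k) * y₀ + (M : k) * kwy x₀ y₀))
    (hD' : 1728 * D' = C₄ ^ 3 - C₆ ^ 2) (hpD' : (p : ℤ) ∣ D') : ¬ (p : ℤ) ∣ C₄ := by
  intro hpC₄
  have hp : p.Prime := Fact.out
  have hnat : ∀ q : ℕ, q.Prime → q ≠ p → ((q : ℕ) : k) ≠ 0 := by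
    intro q hq hqp h
    rw [CharP.cast_eq_zero_iff k p q] at h
    exact hqp ((Nat.prime_dvd_prime_iff_eq hp hq).mp h).symm
  have h2 : (2 : k) ≠ 0 := by
    have := hnat 2 Nat.prime_two (Ne.symm hp2)
    simpa using this
  have h3 : (3 : k) ≠ 0 := by
    have := hnat 3 Nat.prime_three (Ne.symm hp3)
    simpa using this
  have h5 : (5 : k) ≠ 0 := by
    have := hnat 5 Nat.prime_five (Ne.symm hp5)
    simpa using this
  have h1728 : (1728 : k) ≠ 0 := by
    have : (1728 : k) = 2 ^ 6 * 3 ^ 3 := by norm_num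
    rw [this]
    exact mul_ne_zero (pow_ne_zero 6 h2) (pow_ne_zero 3 h3)
  have hDk : (D : k) ≠ 0 := by
    intro h
    exact hpD ((CharP.intCast_eq_zero_iff k p D).mp h)
  have hMk : (M : k) ≠ 0 := by
    intro h
    exact hpM ((CharP.intCast_eq_zero_iff k p M).mp h)
  have hC₄k : (C₄ : k) = 0 := (CharP.intCast_eq_zero_iff k p C₄).mpr hpC₄
  have hD'k : (D' : k) = 0 := (CharP.intCast_eq_zero_iff k p D').mpr hpD'
  -- `f (v₀) ≠ 0`
  have hf₀ : kf x₀ y₀ ≠ 0 := by
    intro hf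
    have hrel := kT_sq_add_kH_cube x₀ y₀
    rw [hf, hH₀, hT₀] at hrel
    have hcast : ((1728 * D : ℤ) : k) = ((c₄ ^ 3 - c₆ ^ 2 : ℤ) : k) := by rw [hD]
    push_cast at hcast
    have : (1728 : k) * (D : k) = 0 := by
      rw [hcast]
      linear_combination -hrel
    rcases mul_eq_zero.mp this with h | h
    · exact h1728 h
    · exact hDk h
  -- `H (u) = 0` and `T (u) = 0`
  have hHu : kH ((n : k) * x₀ + (M : k) * kwx x₀ y₀) ((n : k) * y₀ + (M : k) * kwy x₀ y₀) = 0 := by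
    have := hC₄
    rw [hC₄k] at this
    exact neg_eq_zero.mp this.symm
  have hC₆k : (C₆ : k) = 0 := by
    have hcast : ((1728 * D' : ℤ) : k) = ((C₄ ^ 3 - C₆ ^ 2 : ℤ) : k) := by rw [hD']
    push_cast at hcast
    rw [hD'k, hC₄k] at hcast
    have : (C₆ : k) ^ 2 = 0 := by linear_combination hcast
    exact pow_eq_zero_iff (by norm_num) |>.mp this
  have hTu : kT ((n : k) * x₀ + (M : k) * kwx x₀ y₀) ((n : k) * y₀ + (M : k) * kwy x₀ y₀) = 0 := by
    have := hC₆
    rw [hC₆k] at this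
    exact neg_eq_zero.mp this.symm
  exact away h2 h3 h5 hf₀ (Or.inr hMk) ⟨hHu, hTu⟩

end Field

end Fermat.Agent.S52.H93
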