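import Fermat.Agent.S52.H93.KleinLineDefs

/-!
# S52 / E0 (copy in the `KleinAway` vocabulary): the line identity for `f`

`kDh A B n m` is the universal integer form of degree 12 in `(n, m)` with

* `kf_line : kf (n*x + m*kwx x y) (n*y + m*kwy x y) = kf x y * kDh (kH x y) (kT x y) n m`.

Same method as for `kH_line`, `kT_line`: variables `U = x ^ 5`, `V = y ^ 5` and one
coefficient of `n ^ (12 - k) * m ^ k` at a time.
-/

set_option autoImplicit false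

namespace Fermat.Agent.S52.H93

section LineF

variable {R : Type*} [CommRing R]

/-- The cofactor of `f` along the line `n • v + m • w v`, as a polynomial in
`A = H v`, `B = T v`. -/
def kDh (A B n m : R) : R :=
    (1) * n ^ 12
    + (0) * n ^ 11 * m
    + (66 * A) * n ^ 10 * m ^ 2
    + (-440 * B) * n ^ 9 * m ^ 3
    + (-1485 * A ^ 2) * n ^ 8 * m ^ 4
    + (3168 * A * B) * n ^ 7 * m ^ 5
    + (-10560 * B ^ 2 - 5940 * A ^ 3) * n ^ 6 * m ^ 6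
    + (-4752 * A ^ 2 * B) * n ^ 5 * m ^ 7
    + (-63360 * A * B ^ 2 - 66825 * A ^ 4) * n ^ 4 * m ^ 8
    + (140800 * B ^ 3 + 142560 * A ^ 3 * B) * n ^ 3 * m ^ 9
    + (133056 * A ^ 2 * B ^ 2 + 133650 * A ^ 5) * n ^ 2 * m ^ 10
    + (-61440 * A * B ^ 3 - 61560 * A ^ 4 * B) * n * m ^ 11
    + (102400 * B ^ 4 + 193536 * A ^ 3 * B ^ 2 + 91125 * A ^ 6) * m ^ 12

theorem fcoef_0 (U V a b A B : R) (ha : a = U ^ 2 + 66 * U * V - 11 * V ^ 2) (hb : b = -(11 * U ^ 2) - 66 * U * V + V ^ 2)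
    (hA : A = hU U V) (hB : B = tU U V) :
    U ^ 2 * (1) + 11 * U * V * (1) - V ^ 2 * (1)
      = (U ^ 2 + 11 * U * V - V ^ 2) * (1) := by
  subst ha hb hA hB
  try simp only [hU, tU]
  ring

theorem fcoef_1 (U V a b A B : R) (ha : a = U ^ 2 + 66 * U * V - 11 * V ^ 2) (hb : b = -(11 * U ^ 2) - 66 * U * V + V ^ 2)
    (hA : A = hU U V) (hB : B = tU U V) :
    U ^ 2 * (1 * b + 11 * a) + 11 * U * V * (6 * b + 6 * a) - V ^ 2 * (11 * b + 1 * a)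
      = (U ^ 2 + 11 * U * V - V ^ 2) * (0) := by
  subst ha hb hA hB
  try simp only [hU, tU]
  ring

theorem fcoef_2 (U V a b A B : R) (ha : a = U ^ 2 + 66 * U * V - 11 * V ^ 2) (hb : b = -(11 * U ^ 2) - 66 * U * V + V ^ 2)
    (hA : A = hU U V) (hB : B = tU U V) :
    U ^ 2 * (11 * a * b + 55 * a ^ 2) + 11 * U * V * (15 * b ^ 2 + 36 * a * b + 15 * a ^ 2) - V ^ 2 * (55 * b ^ 2 + 11 * a * b)
      = (U ^ 2 + 11 * U * V - V ^ 2) * (66 * A) := by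
  subst ha hb hA hB
  try simp only [hU, tU]
  ring

theorem fcoef_3 (U V a b A B : R) (ha : a = U ^ 2 + 66 * U * V - 11 * V ^ 2) (hb : b = -(11 * U ^ 2) - 66 * U * V + V ^ 2)
    (hA : A = hU U V) (hB : B = tU U V) :
    U ^ 2 * (55 * a ^ 2 * b + 165 * a ^ 3) + 11 * U * V * (20 * b ^ 3 + 90 * a * b ^ 2 + 90 * a ^ 2 * b + 20 * a ^ 3) - V ^ 2 * (165 * b ^ 3 + 55 * a * b ^ 2)
      = (U ^ 2 + 11 * U * V - V ^ 2) * (-440 * B) := by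
  subst ha hb hA hB
  try simp only [hU, tU]
  ring

theorem fcoef_4 (U V a b A B : R) (ha : a = U ^ 2 + 66 * U * V - 11 * V ^ 2) (hb : b = -(11 * U ^ 2) - 66 * U * V + V ^ 2)
    (hA : A = hU U V) (hB : B = tU U V) :
    U ^ 2 * (165 * a ^ 3 * b + 330 * a ^ 4) + 11 * U * V * (15 * b ^ 4 + 120 * a * b ^ 3 + 225 * a ^ 2 * b ^ 2 + 120 * a ^ 3 * b + 15 * a ^ 4) - V ^ 2 * (330 * b ^ 4 + 165 * a * b ^ 3)
      = (U ^ 2 + 11 * U * V - V ^ 2) * (-1485 * A ^ 2) := by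
  subst ha hb hA hB
  try simp only [hU, tU]
  ring

theorem fcoef_5 (U V a b A B : R) (ha : a = U ^ 2 + 66 * U * V - 11 * V ^ 2) (hb : b = -(11 * U ^ 2) - 66 * U * V + V ^ 2)
    (hA : A = hU U V) (hB : B = tU U V) :
    U ^ 2 * (330 * a ^ 4 * b + 462 * a ^ 5) + 11 * U * V * (6 * b ^ 5 + 90 * a * b ^ 4 + 300 * a ^ 2 * b ^ 3 + 300 * a ^ 3 * b ^ 2 + 90 * a ^ 4 * b + 6 * a ^ 5) - V ^ 2 * (462 * b ^ 5 + 330 * a * b ^ 4)
      = (U ^ 2 + 11 * U * V - V ^ 2) * (3168 * A * B) := by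
  subst ha hb hA hB
  try simp only [hU, tU]
  ring

theorem fcoef_6 (U V a b A B : R) (ha : a = U ^ 2 + 66 * U * V - 11 * V ^ 2) (hb : b = -(11 * U ^ 2) - 66 * U * V + V ^ 2)
    (hA : A = hU U V) (hB : B = tU U V) :
    U ^ 2 * (462 * a ^ 5 * b + 462 * a ^ 6) + 11 * U * V * (1 * b ^ 6 + 36 * a * b ^ 5 + 225 * a ^ 2 * b ^ 4 + 400 * a ^ 3 * b ^ 3 + 225 * a ^ 4 * b ^ 2 + 36 * a ^ 5 * b + 1 * a ^ 6) - V ^ 2 * (462 * b ^ 6 + 462 * a * b ^ 5)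
      = (U ^ 2 + 11 * U * V - V ^ 2) * (-10560 * B ^ 2 - 5940 * A ^ 3) := by
  subst ha hb hA hB
  try simp only [hU, tU]
  ring

theorem fcoef_7 (U V a b A B : R) (ha : a = U ^ 2 + 66 * U * V - 11 * V ^ 2) (hb : b = -(11 * U ^ 2) - 66 * U * V + V ^ 2)
    (hA : A = hU U V) (hB : B = tU U V) :
    U ^ 2 * (462 * a ^ 6 * b + 330 * a ^ 7) + 11 * U * V * (6 * a * b ^ 6 + 90 * a ^ 2 * b ^ 5 + 300 * a ^ 3 * b ^ 4 + 300 * a ^ 4 * b ^ 3 + 90 * a ^ 5 * b ^ 2 + 6 * a ^ 6 * b) - V ^ 2 * (330 * b ^ 7 + 462 * a * b ^ 6)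
      = (U ^ 2 + 11 * U * V - V ^ 2) * (-4752 * A ^ 2 * B) := by
  subst ha hb hA hB
  try simp only [hU, tU]
  ring

theorem fcoef_8 (U V a b A B : R) (ha : a = U ^ 2 + 66 * U * V - 11 * V ^ 2) (hb : b = -(11 * U ^ 2) - 66 * U * V + V ^ 2)
    (hA : A = hU U V) (hB : B = tU U V) :
    U ^ 2 * (330 * a ^ 7 * b + 165 * a ^ 8) + 11 * U * V * (15 * a ^ 2 * b ^ 6 + 120 * a ^ 3 * b ^ 5 + 225 * a ^ 4 * b ^ 4 + 120 * a ^ 5 * b ^ 3 + 15 * a ^ 6 * b ^ 2) - V ^ 2 * (165 * b ^ 8 + 330 * a * b ^ 7)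
      = (U ^ 2 + 11 * U * V - V ^ 2) * (-63360 * A * B ^ 2 - 66825 * A ^ 4) := by
  subst ha hb hA hB
  try simp only [hU, tU]
  ring

theorem fcoef_9 (U V a b A B : R) (ha : a = U ^ 2 + 66 * U * V - 11 * V ^ 2) (hb : b = -(11 * U ^ 2) - 66 * U * V + V ^ 2)
    (hA : A = hU U V) (hB : B = tU U V) :
    U ^ 2 * (165 * a ^ 8 * b + 55 * a ^ 9) + 11 * U * V * (20 * a ^ 3 * b ^ 6 + 90 * a ^ 4 * b ^ 5 + 90 * a ^ 5 * b ^ 4 + 20 * a ^ 6 * b ^ 3) - V ^ 2 * (55 * b ^ 9 + 165 * a * b ^ 8)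
      = (U ^ 2 + 11 * U * V - V ^ 2) * (140800 * B ^ 3 + 142560 * A ^ 3 * B) := by
  subst ha hb hA hB
  try simp only [hU, tU]
  ring

theorem fcoef_10 (U V a b A B : R) (ha : a = U ^ 2 + 66 * U * V - 11 * V ^ 2) (hb : b = -(11 * U ^ 2) - 66 * U * V + V ^ 2)
    (hA : A = hU U V) (hB : B = tU U V) :
    U ^ 2 * (55 * a ^ 9 * b + 11 * a ^ 10) + 11 * U * V * (15 * a ^ 4 * b ^ 6 + 36 * a ^ 5 * b ^ 5 + 15 * a ^ 6 * b ^ 4) - V ^ 2 * (11 * b ^ 10 + 55 * a * b ^ 9)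
      = (U ^ 2 + 11 * U * V - V ^ 2) * (133056 * A ^ 2 * B ^ 2 + 133650 * A ^ 5) := by
  subst ha hb hA hB
  try simp only [hU, tU]
  ring

theorem fcoef_11 (U V a b A B : R) (ha : a = U ^ 2 + 66 * U * V - 11 * V ^ 2) (hb : b = -(11 * U ^ 2) - 66 * U * V + V ^ 2)
    (hA : A = hU U V) (hB : B = tU U V) :
    U ^ 2 * (11 * a ^ 10 * b + 1 * a ^ 11) + 11 * U * V * (6 * a ^ 5 * b ^ 6 + 6 * a ^ 6 * b ^ 5) - V ^ 2 * (1 * b ^ 11 + 11 * a * b ^ 10)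
      = (U ^ 2 + 11 * U * V - V ^ 2) * (-61440 * A * B ^ 3 - 61560 * A ^ 4 * B) := by
  subst ha hb hA hB
  try simp only [hU, tU]
  ring

theorem fcoef_12 (U V a b A B : R) (ha : a = U ^ 2 + 66 * U * V - 11 * V ^ 2) (hb : b = -(11 * U ^ 2) - 66 * U * V + V ^ 2)
    (hA : A = hU U V) (hB : B = tU U V) :
    U ^ 2 * (1 * a ^ 11 * b) + 11 * U * V * (1 * a ^ 6 * b ^ 6) - V ^ 2 * (1 * a * b ^ 11)
      = (U ^ 2 + 11 * U * V - V ^ 2) * (102400 * B ^ 4 + 193536 * A ^ 3 * B ^ 2 + 91125 * A ^ 6) := by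
  subst ha hb hA hB
  try simp only [hU, tU]
  ring

theorem fU_line (U V n m : R) :
    (n + m * (U ^ 2 + 66 * U * V - 11 * V ^ 2)) * (n + m * (-(11 * U ^ 2) - 66 * U * V + V ^ 2))
        * (U ^ 2 * (n + m * (U ^ 2 + 66 * U * V - 11 * V ^ 2)) ^ 10
          + 11 * U * V * (n + m * (U ^ 2 + 66 * U * V - 11 * V ^ 2)) ^ 5
              * (n + m * (-(11 * U ^ 2) - 66 * U * V + V ^ 2)) ^ 5
          - V ^ 2 * (n + m * (-(11 * U ^ 2) - 66 * U * V + V ^ 2)) ^ 10)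
      = (U ^ 2 + 11 * U * V - V ^ 2) * kDh (hU U V) (tU U V) n m := by
  generalize ha : U ^ 2 + 66 * U * V - 11 * V ^ 2 = a
  generalize hb : -(11 * U ^ 2) - 66 * U * V + V ^ 2 = b
  generalize hA : hU U V = A
  generalize hB : tU U V = B
  have h0 := fcoef_0 U V a b A B ha.symm hb.symm hA.symm hB.symm
  have h1 := fcoef_1 U V a b A B ha.symm hb.symm hA.symm hB.symm
  have h2 := fcoef_2 U V a b A B ha.symm hb.symm hA.symm hB.symm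
  have h3 := fcoef_3 U V a b A B ha.symm hb.symm hA.symm hB.symm
  have h4 := fcoef_4 U V a b A B ha.symm hb.symm hA.symm hB.symm
  have h5 := fcoef_5 U V a b A B ha.symm hb.symm hA.symm hB.symm
  have h6 := fcoef_6 U V a b A B ha.symm hb.symm hA.symm hB.symm
  have h7 := fcoef_7 U V a b A B ha.symm hb.symm hA.symm hB.symm
  have h8 := fcoef_8 U V a b A B ha.symm hb.symm hA.symm hB.symm
  have h9 := fcoef_9 U V a b A B ha.symm hb.symm hA.symm hB.symm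
  have h10 := fcoef_10 U V a b A B ha.symm hb.symm hA.symm hB.symm
  have h11 := fcoef_11 U V a b A B ha.symm hb.symm hA.symm hB.symm
  have h12 := fcoef_12 U V a b A B ha.symm hb.symm hA.symm hB.symm
  simp only [kDh]
  linear_combination (n ^ 12) * h0 + (n ^ 11 * m) * h1 + (n ^ 10 * m ^ 2) * h2 + (n ^ 9 * m ^ 3) * h3 + (n ^ 8 * m ^ 4) * h4 + (n ^ 7 * m ^ 5) * h5 + (n ^ 6 * m ^ 6) * h6 + (n ^ 5 * m ^ 7) * h7 + (n ^ 4 * m ^ 8) * h8 + (n ^ 3 * m ^ 9) * h9 + (n ^ 2 * m ^ 10) * h10 + (n * m ^ 11) * h11 + (m ^ 12) * h12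

theorem kf_line (x y n m : R) :
    kf (n * x + m * kwx x y) (n * y + m * kwy x y) = kf x y * kDh (kH x y) (kT x y) n m := by
  have h := fU_line (x ^ 5) (y ^ 5) n m
  rw [kH_eq_hU x y, kT_eq_tU x y, kwx_eq, kwy_eq]
  generalize kDh (hU (x ^ 5) (y ^ 5)) (tU (x ^ 5) (y ^ 5)) n m = D at h ⊢
  generalize (x ^ 5) ^ 2 + 66 * x ^ 5 * y ^ 5 - 11 * (y ^ 5) ^ 2 = a at h ⊢
  generalize -(11 * (x ^ 5) ^ 2) - 66 * x ^ 5 * y ^ 5 + (y ^ 5) ^ 2 = b at h ⊢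
  simp only [kf]
  linear_combination (x * y) * h

end LineF

end Fermat.Agent.S52.H93
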