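import Fermat.Agent.S52.H93.KleinLine
import Fermat.Agent.S52.H93.KleinLineF
import Fermat.Agent.S52.H3.FamilyIface

/-!
# S52 / E0: the Klein family instance

The forms `kRh`, `kSh`, `kDh` of `KleinLineDefs` / `KleinLineF` satisfy the interface
`H3.IsKleinFamily` (ring-hom compatibility, values at `m = 0`, and the three line identities).
-/

set_option autoImplicit false

namespace Fermat.Agent.S52.H93

/-- `kRh` as an operation on every commutative ring (`Type`-valued, as in `H3.IsKleinFamily`). -/
def famRh : ∀ (R : Type) [CommRing R], R → R → R → R → R := fun _ _ => kRh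

/-- `kSh` as an operation on every commutative ring. -/
def famSh : ∀ (R : Type) [CommRing R], R → R → R → R → R := fun _ _ => kSh

/-- `kDh` as an operation on every commutative ring. -/
def famDh : ∀ (R : Type) [CommRing R], R → R → R → R → R := fun _ _ => kDh

theorem map_kRh {R S : Type*} [CommRing R] [CommRing S] (φ : R →+* S) (a b n m : R) :
    φ (kRh a b n m) = kRh (φ a) (φ b) (φ n) (φ m) := by
  simp only [kRh, map_add, map_sub, map_mul, map_pow, map_neg, map_ofNat, map_one]

theorem map_kSh {R S : Type*} [CommRing R] [CommRing S] (φ : R →+* S) (a b n m : R) :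
    φ (kSh a b n m) = kSh (φ a) (φ b) (φ n) (φ m) := by
  simp only [kSh, map_add, map_sub, map_mul, map_pow, map_neg, map_ofNat, map_one]

theorem map_kDh {R S : Type*} [CommRing R] [CommRing S] (φ : R →+* S) (a b n m : R) :
    φ (kDh a b n m) = kDh (φ a) (φ b) (φ n) (φ m) := by
  simp only [kDh, map_add, map_sub, map_mul, map_pow, map_neg, map_ofNat, map_one, map_zero]

theorem kRh_zero {R : Type*} [CommRing R] (a b n : R) : kRh a b n 0 = a * n ^ 20 := by
  simp only [kRh]; ring

theorem kSh_zero {R : Type*} [CommRing R] (a b n : R) : kSh a b n 0 = b * n ^ 30 := by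
  simp only [kSh]; ring

theorem kDh_zero {R : Type*} [CommRing R] (a b n : R) : kDh a b n 0 = n ^ 12 := by
  simp only [kDh]; ring

/-- The Klein family `(kRh, kSh, kDh)` satisfies the interface of `H3/FamilyIface.lean`. -/
theorem isKleinFamily : H3.IsKleinFamily famRh famSh famDh where
  map_Rh φ a b n m := map_kRh φ a b n m
  map_Sh φ a b n m := map_kSh φ a b n m
  map_Dh φ a b n m := map_kDh φ a b n m
  Rh_zero a b n := kRh_zero a b n
  Sh_zero a b n := kSh_zero a b n
  Dh_zero a b n := kDh_zero a b n
  lineH x y n m := kH_line x y n m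
  lineT x y n m := kT_line x y n m
  lineF x y n m := kf_line x y n m

end Fermat.Agent.S52.H93
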