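import Fermat.Agent.S52.H93.KleinLineDefs

/-!
# S52 / E0: coefficient identities for the line identities (T, coefficients 0-15)
-/

set_option autoImplicit false

namespace Fermat.Agent.S52.H93

section Coef

variable {R : Type*} [CommRing R]

theorem tcoef_0 (U V a b A B : R) (ha : a = U ^ 2 + 66 * U * V - 11 * V ^ 2) (hb : b = -(11 * U ^ 2) - 66 * U * V + V ^ 2)
    (hA : A = hU U V) (hB : B = tU U V) :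
    U ^ 6 * (1) + V ^ 6 * (1) + 522 * U ^ 5 * V * (1) - 522 * U * V ^ 5 * (1) - 10005 * U ^ 4 * V ^ 2 * (1) - 10005 * U ^ 2 * V ^ 4 * (1)
      = 1 * B := by
  subst ha hb hA hB
  simp only [hU, tU]
  ring

theorem tcoef_1 (U V a b A B : R) (ha : a = U ^ 2 + 66 * U * V - 11 * V ^ 2) (hb : b = -(11 * U ^ 2) - 66 * U * V + V ^ 2)
    (hA : A = hU U V) (hB : B = tU U V) :
    U ^ 6 * (30 * a) + V ^ 6 * (30 * b) + 522 * U ^ 5 * V * (5 * b + 25 * a) - 522 * U * V ^ 5 * (25 * b + 5 * a) - 10005 * U ^ 4 * V ^ 2 * (10 * b + 20 * a) - 10005 * U ^ 2 * V ^ 4 * (20 * b + 10 * a)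
      = 30 * A ^ 2 := by
  subst ha hb hA hB
  simp only [hU, tU]
  ring

theorem tcoef_2 (U V a b A B : R) (ha : a = U ^ 2 + 66 * U * V - 11 * V ^ 2) (hb : b = -(11 * U ^ 2) - 66 * U * V + V ^ 2)
    (hA : A = hU U V) (hB : B = tU U V) :
    U ^ 6 * (435 * a ^ 2) + V ^ 6 * (435 * b ^ 2) + 522 * U ^ 5 * V * (10 * b ^ 2 + 125 * a * b + 300 * a ^ 2) - 522 * U * V ^ 5 * (300 * b ^ 2 + 125 * a * b + 10 * a ^ 2) - 10005 * U ^ 4 * V ^ 2 * (45 * b ^ 2 + 200 * a * b + 190 * a ^ 2) - 10005 * U ^ 2 * V ^ 4 * (190 * b ^ 2 + 200 * a * b + 45 * a ^ 2)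
      = -435 * A * B := by
  subst ha hb hA hB
  simp only [hU, tU]
  ring

theorem tcoef_3 (U V a b A B : R) (ha : a = U ^ 2 + 66 * U * V - 11 * V ^ 2) (hb : b = -(11 * U ^ 2) - 66 * U * V + V ^ 2)
    (hA : A = hU U V) (hB : B = tU U V) :
    U ^ 6 * (4060 * a ^ 3) + V ^ 6 * (4060 * b ^ 3) + 522 * U ^ 5 * V * (10 * b ^ 3 + 250 * a * b ^ 2 + 1500 * a ^ 2 * b + 2300 * a ^ 3) - 522 * U * V ^ 5 * (2300 * b ^ 3 + 1500 * a * b ^ 2 + 250 * a ^ 2 * b + 10 * a ^ 3) - 10005 * U ^ 4 * V ^ 2 * (120 * b ^ 3 + 900 * a * b ^ 2 + 1900 * a ^ 2 * b + 1140 * a ^ 3) - 10005 * U ^ 2 * V ^ 4 * (1140 * b ^ 3 + 1900 * a * b ^ 2 + 900 * a ^ 2 * b + 120 * a ^ 3)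
      = 2900 * B ^ 2 - 1160 * A ^ 3 := by
  subst ha hb hA hB
  simp only [hU, tU]
  ring

theorem tcoef_4 (U V a b A B : R) (ha : a = U ^ 2 + 66 * U * V - 11 * V ^ 2) (hb : b = -(11 * U ^ 2) - 66 * U * V + V ^ 2)
    (hA : A = hU U V) (hB : B = tU U V) :
    U ^ 6 * (27405 * a ^ 4) + V ^ 6 * (27405 * b ^ 4) + 522 * U ^ 5 * V * (5 * b ^ 4 + 250 * a * b ^ 3 + 3000 * a ^ 2 * b ^ 2 + 11500 * a ^ 3 * b + 12650 * a ^ 4) - 522 * U * V ^ 5 * (12650 * b ^ 4 + 11500 * a * b ^ 3 + 3000 * a ^ 2 * b ^ 2 + 250 * a ^ 3 * b + 5 * a ^ 4) - 10005 * U ^ 4 * V ^ 2 * (210 * b ^ 4 + 2400 * a * b ^ 3 + 8550 * a ^ 2 * b ^ 2 + 11400 * a ^ 3 * b + 4845 * a ^ 4) - 10005 * U ^ 2 * V ^ 4 * (4845 * b ^ 4 + 11400 * a * b ^ 3 + 8550 * a ^ 2 * b ^ 2 + 2400 * a ^ 3 * b + 210 * a ^ 4)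
      = 27405 * A ^ 2 * B := by
  subst ha hb hA hB
  simp only [hU, tU]
  ring

theorem tcoef_5 (U V a b A B : R) (ha : a = U ^ 2 + 66 * U * V - 11 * V ^ 2) (hb : b = -(11 * U ^ 2) - 66 * U * V + V ^ 2)
    (hA : A = hU U V) (hB : B = tU U V) :
    U ^ 6 * (142506 * a ^ 5) + V ^ 6 * (142506 * b ^ 5) + 522 * U ^ 5 * V * (1 * b ^ 5 + 125 * a * b ^ 4 + 3000 * a ^ 2 * b ^ 3 + 23000 * a ^ 3 * b ^ 2 + 63250 * a ^ 4 * b + 53130 * a ^ 5) - 522 * U * V ^ 5 * (53130 * b ^ 5 + 63250 * a * b ^ 4 + 23000 * a ^ 2 * b ^ 3 + 3000 * a ^ 3 * b ^ 2 + 125 * a ^ 4 * b + 1 * a ^ 5) - 10005 * U ^ 4 * V ^ 2 * (252 * b ^ 5 + 4200 * a * b ^ 4 + 22800 * a ^ 2 * b ^ 3 + 51300 * a ^ 3 * b ^ 2 + 48450 * a ^ 4 * b + 15504 * a ^ 5) - 10005 * U ^ 2 * V ^ 4 * (15504 * b ^ 5 + 48450 * a * b ^ 4 + 51300 * a ^ 2 * b ^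 3 + 22800 * a ^ 3 * b ^ 2 + 4200 * a ^ 4 * b + 252 * a ^ 5)
      = -46980 * A * B ^ 2 + 95526 * A ^ 4 := by
  subst ha hb hA hB
  simp only [hU, tU]
  ring

theorem tcoef_6 (U V a b A B : R) (ha : a = U ^ 2 + 66 * U * V - 11 * V ^ 2) (hb : b = -(11 * U ^ 2) - 66 * U * V + V ^ 2)
    (hA : A = hU U V) (hB : B = tU U V) :
    U ^ 6 * (593775 * a ^ 6) + V ^ 6 * (593775 * b ^ 6) + 522 * U ^ 5 * V * (25 * a * b ^ 5 + 1500 * a ^ 2 * b ^ 4 + 23000 * a ^ 3 * b ^ 3 + 126500 * a ^ 4 * b ^ 2 + 265650 * a ^ 5 * b + 177100 * a ^ 6) - 522 * U * V ^ 5 * (177100 * b ^ 6 + 265650 * a * b ^ 5 + 126500 * a ^ 2 * b ^ 4 + 23000 * a ^ 3 * b ^ 3 + 1500 * a ^ 4 * b ^ 2 + 25 * a ^ 5 * b) - 10005 * U ^ 4 * V ^ 2 * (210 * b ^ 6 + 5040 * a * b ^ 5 + 39900 * a ^ 2 * b ^ 4 + 136800 * a ^ 3 * b ^ 3 + 218025 * a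 ^ 4 * b ^ 2 + 155040 * a ^ 5 * b + 38760 * a ^ 6) - 10005 * U ^ 2 * V ^ 4 * (38760 * b ^ 6 + 155040 * a * b ^ 5 + 218025 * a ^ 2 * b ^ 4 + 136800 * a ^ 3 * b ^ 3 + 39900 * a ^ 4 * b ^ 2 + 5040 * a ^ 5 * b + 210 * a ^ 6)
      = 156600 * B ^ 3 - 437175 * A ^ 3 * B := by
  subst ha hb hA hB
  simp only [hU, tU]
  ring

theorem tcoef_7 (U V a b A B : R) (ha : a = U ^ 2 + 66 * U * V - 11 * V ^ 2) (hb : b = -(11 * U ^ 2) - 66 * U * V + V ^ 2)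
    (hA : A = hU U V) (hB : B = tU U V) :
    U ^ 6 * (2035800 * a ^ 7) + V ^ 6 * (2035800 * b ^ 7) + 522 * U ^ 5 * V * (300 * a ^ 2 * b ^ 5 + 11500 * a ^ 3 * b ^ 4 + 126500 * a ^ 4 * b ^ 3 + 531300 * a ^ 5 * b ^ 2 + 885500 * a ^ 6 * b + 480700 * a ^ 7) - 522 * U * V ^ 5 * (480700 * b ^ 7 + 885500 * a * b ^ 6 + 531300 * a ^ 2 * b ^ 5 + 126500 * a ^ 3 * b ^ 4 + 11500 * a ^ 4 * b ^ 3 + 300 * a ^ 5 * b ^ 2) - 10005 * U ^ 4 * V ^ 2 * (120 * b ^ 7 + 4200 * a * b ^ 6 + 47880 * a ^ 2 * b ^ 5 + 239400 * a ^ 3 * b ^ 4 + 581400 * a ^ 4 * b ^ 3 + 697680 * a ^ 5 * b ^ 2 + 387600 * a ^ 6 * b + 77520 * a ^ 7) - 10005 * U ^ 2 * V ^ 4 * (77520 * b ^ 7 + 387600 * a * b ^ 6 + 697680 * a ^ 2 * b ^ 5 + 581400 * a ^ 3 * b ^ 4 + 239400 * a ^ 4 * b ^ 3 + 47880 * a ^ 5 * b ^ 2 + 4200 * a ^ 6 * b + 120 * a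 ^ 7)
      = 3915000 * A ^ 2 * B ^ 2 + 1879200 * A ^ 5 := by
  subst ha hb hA hB
  simp only [hU, tU]
  ring

theorem tcoef_8 (U V a b A B : R) (ha : a = U ^ 2 + 66 * U * V - 11 * V ^ 2) (hb : b = -(11 * U ^ 2) - 66 * U * V + V ^ 2)
    (hA : A = hU U V) (hB : B = tU U V) :
    U ^ 6 * (5852925 * a ^ 8) + V ^ 6 * (5852925 * b ^ 8) + 522 * U ^ 5 * V * (2300 * a ^ 3 * b ^ 5 + 63250 * a ^ 4 * b ^ 4 + 531300 * a ^ 5 * b ^ 3 + 1771000 * a ^ 6 * b ^ 2 + 2403500 * a ^ 7 * b + 1081575 * a ^ 8) - 522 * U * V ^ 5 * (1081575 * b ^ 8 + 2403500 * a * b ^ 7 + 1771000 * a ^ 2 * b ^ 6 + 531300 * a ^ 3 * b ^ 5 + 63250 * a ^ 4 * b ^ 4 + 2300 * a ^ 5 * b ^ 3) - 10005 * U ^ 4 * V ^ 2 * (45 * b ^ 8 + 2400 * a * b ^ 7 + 39900 * a ^ 2 * b ^ 6 + 287280 * a ^ 3 * b ^ 5 + 1017450 * a ^ 4 * b ^ 4 + 1860480 *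 a ^ 5 * b ^ 3 + 1744200 * a ^ 6 * b ^ 2 + 775200 * a ^ 7 * b + 125970 * a ^ 8) - 10005 * U ^ 2 * V ^ 4 * (125970 * b ^ 8 + 775200 * a * b ^ 7 + 1744200 * a ^ 2 * b ^ 6 + 1860480 * a ^ 3 * b ^ 5 + 1017450 * a ^ 4 * b ^ 4 + 287280 * a ^ 5 * b ^ 3 + 39900 * a ^ 6 * b ^ 2 + 2400 * a ^ 7 * b + 45 * a ^ 8)
      = -14407200 * A * B ^ 3 - 8554275 * A ^ 4 * B := by
  subst ha hb hA hB
  simp only [hU, tU]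
  ring

theorem tcoef_9 (U V a b A B : R) (ha : a = U ^ 2 + 66 * U * V - 11 * V ^ 2) (hb : b = -(11 * U ^ 2) - 66 * U * V + V ^ 2)
    (hA : A = hU U V) (hB : B = tU U V) :
    U ^ 6 * (14307150 * a ^ 9) + V ^ 6 * (14307150 * b ^ 9) + 522 * U ^ 5 * V * (12650 * a ^ 4 * b ^ 5 + 265650 * a ^ 5 * b ^ 4 + 1771000 * a ^ 6 * b ^ 3 + 4807000 * a ^ 7 * b ^ 2 + 5407875 * a ^ 8 * b + 2042975 * a ^ 9) - 522 * U * V ^ 5 * (2042975 * b ^ 9 + 5407875 * a * b ^ 8 + 4807000 * a ^ 2 * b ^ 7 + 1771000 * a ^ 3 * b ^ 6 + 265650 * a ^ 4 * b ^ 5 + 12650 * a ^ 5 * b ^ 4) - 10005 * U ^ 4 * V ^ 2 * (10 * b ^ 9 + 900 * a * b ^ 8 + 22800 * a ^ 2 * b ^ 7 + 239400 * a ^ 3 * b ^ 6 + 1220940 * a ^ 4 * b ^ 5 + 3255840 * a ^ 5 * b ^ 4 + 4651200 * a ^ 6 * b ^ 3 + 3488400 * a ^ 7 * b ^ 2 + 1259700 * a ^ 8 * b + 167960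 * a ^ 9) - 10005 * U ^ 2 * V ^ 4 * (167960 * b ^ 9 + 1259700 * a * b ^ 8 + 3488400 * a ^ 2 * b ^ 7 + 4651200 * a ^ 3 * b ^ 6 + 3255840 * a ^ 4 * b ^ 5 + 1220940 * a ^ 5 * b ^ 4 + 239400 * a ^ 6 * b ^ 3 + 22800 * a ^ 7 * b ^ 2 + 900 * a ^ 8 * b + 10 * a ^ 9)
      = 32016000 * B ^ 4 + 42021000 * A ^ 3 * B ^ 2 + 24312150 * A ^ 6 := by
  subst ha hb hA hB
  simp only [hU, tU]
  ring

theorem tcoef_10 (U V a b A B : R) (ha : a = U ^ 2 + 66 * U * V - 11 * V ^ 2) (hb : b = -(11 * U ^ 2) - 66 * U * V + V ^ 2)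
    (hA : A = hU U V) (hB : B = tU U V) :
    U ^ 6 * (30045015 * a ^ 10) + V ^ 6 * (30045015 * b ^ 10) + 522 * U ^ 5 * V * (53130 * a ^ 5 * b ^ 5 + 885500 * a ^ 6 * b ^ 4 + 4807000 * a ^ 7 * b ^ 3 + 10815750 * a ^ 8 * b ^ 2 + 10214875 * a ^ 9 * b + 3268760 * a ^ 10) - 522 * U * V ^ 5 * (3268760 * b ^ 10 + 10214875 * a * b ^ 9 + 10815750 * a ^ 2 * b ^ 8 + 4807000 * a ^ 3 * b ^ 7 + 885500 * a ^ 4 * b ^ 6 + 53130 * a ^ 5 * b ^ 5) - 10005 * U ^ 4 * V ^ 2 * (1 * b ^ 10 + 200 * a * b ^ 9 + 8550 * a ^ 2 * b ^ 8 + 136800 * a ^ 3 * b ^ 7 + 1017450 * a ^ 4 * b ^ 6 + 3907008 * a ^ 5 * b ^ 5 + 8139600 * a ^ 6 * b ^ 4 + 9302400 * a ^ 7 * b ^ 3 + 5668650 * a ^ 8 * b ^ 2 + 1679600 * a ^ 9 * b + 184756 * a ^ 10) - 10005 * U ^ 2 * V ^ 4 * (184756 * b ^ 10 + 1679600 * a * b ^ 9 + 5668650 * a ^ 2 * b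 ^ 8 + 9302400 * a ^ 3 * b ^ 7 + 8139600 * a ^ 4 * b ^ 6 + 3907008 * a ^ 5 * b ^ 5 + 1017450 * a ^ 6 * b ^ 4 + 136800 * a ^ 7 * b ^ 3 + 8550 * a ^ 8 * b ^ 2 + 200 * a ^ 9 * b + 1 * a ^ 10)
      = -216588240 * A ^ 2 * B ^ 3 - 246633255 * A ^ 5 * B := by
  subst ha hb hA hB
  simp only [hU, tU]
  ring

theorem tcoef_11 (U V a b A B : R) (ha : a = U ^ 2 + 66 * U * V - 11 * V ^ 2) (hb : b = -(11 * U ^ 2) - 66 * U * V + V ^ 2)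
    (hA : A = hU U V) (hB : B = tU U V) :
    U ^ 6 * (54627300 * a ^ 11) + V ^ 6 * (54627300 * b ^ 11) + 522 * U ^ 5 * V * (177100 * a ^ 6 * b ^ 5 + 2403500 * a ^ 7 * b ^ 4 + 10815750 * a ^ 8 * b ^ 3 + 20429750 * a ^ 9 * b ^ 2 + 16343800 * a ^ 10 * b + 4457400 * a ^ 11) - 522 * U * V ^ 5 * (4457400 * b ^ 11 + 16343800 * a * b ^ 10 + 20429750 * a ^ 2 * b ^ 9 + 10815750 * a ^ 3 * b ^ 8 + 2403500 * a ^ 4 * b ^ 7 + 177100 * a ^ 5 * b ^ 6) - 10005 * U ^ 4 * V ^ 2 * (20 * a * b ^ 10 + 1900 * a ^ 2 * b ^ 9 + 51300 * a ^ 3 * b ^ 8 + 581400 * a ^ 4 * b ^ 7 + 3255840 * a ^ 5 * b ^ 6 + 9767520 * a ^ 6 * b ^ 5 + 16279200 * a ^ 7 * b ^ 4 + 15116400 * a ^ 8 * b ^ 3 + 7558200 * a ^ 9 * b ^ 2 + 1847560 * a ^ 10 * b + 167960 * a ^ 11) - 10005 * U ^ 2 * V ^ 4 * (167960 * b ^ 11 + 1847560 * a * b ^ 10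 + 7558200 * a ^ 2 * b ^ 9 + 15116400 * a ^ 3 * b ^ 8 + 16279200 * a ^ 4 * b ^ 7 + 9767520 * a ^ 5 * b ^ 6 + 3255840 * a ^ 6 * b ^ 5 + 581400 * a ^ 7 * b ^ 4 + 51300 * a ^ 8 * b ^ 3 + 1900 * a ^ 9 * b ^ 2 + 20 * a ^ 10 * b)
      = 1459929600 * A * B ^ 4 + 1352475900 * A ^ 4 * B ^ 2 - 162081000 * A ^ 7 := by
  subst ha hb hA hB
  simp only [hU, tU]
  ring

theorem tcoef_12 (U V a b A B : R) (ha : a = U ^ 2 + 66 * U * V - 11 * V ^ 2) (hb : b = -(11 * U ^ 2) - 66 * U * V + V ^ 2)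
    (hA : A = hU U V) (hB : B = tU U V) :
    U ^ 6 * (86493225 * a ^ 12) + V ^ 6 * (86493225 * b ^ 12) + 522 * U ^ 5 * V * (480700 * a ^ 7 * b ^ 5 + 5407875 * a ^ 8 * b ^ 4 + 20429750 * a ^ 9 * b ^ 3 + 32687600 * a ^ 10 * b ^ 2 + 22287000 * a ^ 11 * b + 5200300 * a ^ 12) - 522 * U * V ^ 5 * (5200300 * b ^ 12 + 22287000 * a * b ^ 11 + 32687600 * a ^ 2 * b ^ 10 + 20429750 * a ^ 3 * b ^ 9 + 5407875 * a ^ 4 * b ^ 8 + 480700 * a ^ 5 * b ^ 7) - 10005 * U ^ 4 * V ^ 2 * (190 * a ^ 2 * b ^ 10 + 11400 * a ^ 3 * b ^ 9 + 218025 * a ^ 4 * b ^ 8 + 1860480 * a ^ 5 * b ^ 7 + 8139600 * a ^ 6 * b ^ 6 + 19535040 * a ^ 7 * b ^ 5 + 26453700 * a ^ 8 * b ^ 4 + 20155200 * a ^ 9 * b ^ 3 + 8314020 * a ^ 10 * b ^ 2 + 1679600 * a ^ 11 * b + 125970 * a ^ 12) - 10005 * U ^ 2 * V ^ 4 * (125970 * b ^ 12 + 1679600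 * a * b ^ 11 + 8314020 * a ^ 2 * b ^ 10 + 20155200 * a ^ 3 * b ^ 9 + 26453700 * a ^ 4 * b ^ 8 + 19535040 * a ^ 5 * b ^ 7 + 8139600 * a ^ 6 * b ^ 6 + 1860480 * a ^ 7 * b ^ 5 + 218025 * a ^ 8 * b ^ 4 + 11400 * a ^ 9 * b ^ 3 + 190 * a ^ 10 * b ^ 2)
      = -2433216000 * B ^ 5 + 1612005600 * A ^ 3 * B ^ 3 + 4131714825 * A ^ 6 * B := by
  subst ha hb hA hB
  simp only [hU, tU]
  ring

theorem tcoef_13 (U V a b A B : R) (ha : a = U ^ 2 + 66 * U * V - 11 * V ^ 2) (hb : b = -(11 * U ^ 2) - 66 * U * V + V ^ 2)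
    (hA : A = hU U V) (hB : B = tU U V) :
    U ^ 6 * (119759850 * a ^ 13) + V ^ 6 * (119759850 * b ^ 13) + 522 * U ^ 5 * V * (1081575 * a ^ 8 * b ^ 5 + 10214875 * a ^ 9 * b ^ 4 + 32687600 * a ^ 10 * b ^ 3 + 44574000 * a ^ 11 * b ^ 2 + 26001500 * a ^ 12 * b + 5200300 * a ^ 13) - 522 * U * V ^ 5 * (5200300 * b ^ 13 + 26001500 * a * b ^ 12 + 44574000 * a ^ 2 * b ^ 11 + 32687600 * a ^ 3 * b ^ 10 + 10214875 * a ^ 4 * b ^ 9 + 1081575 * a ^ 5 * b ^ 8) - 10005 * U ^ 4 * V ^ 2 * (1140 * a ^ 3 * b ^ 10 + 48450 * a ^ 4 * b ^ 9 + 697680 * a ^ 5 * b ^ 8 + 4651200 * a ^ 6 * b ^ 7 + 16279200 * a ^ 7 * b ^ 6 + 31744440 * a ^ 8 * b ^ 5 + 35271600 * a ^ 9 * b ^ 4 + 22170720 * a ^ 10 * b ^ 3 + 7558200 * a ^ 11 * b ^ 2 + 1259700 * a ^ 12 * b + 77520 * a ^ 13) - 10005 * U ^ 2 * V ^ 4 * (77520 * b ^ 13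 + 1259700 * a * b ^ 12 + 7558200 * a ^ 2 * b ^ 11 + 22170720 * a ^ 3 * b ^ 10 + 35271600 * a ^ 4 * b ^ 9 + 31744440 * a ^ 5 * b ^ 8 + 16279200 * a ^ 6 * b ^ 7 + 4651200 * a ^ 7 * b ^ 6 + 697680 * a ^ 8 * b ^ 5 + 48450 * a ^ 9 * b ^ 4 + 1140 * a ^ 10 * b ^ 3)
      = -12044419200 * A ^ 2 * B ^ 4 - 5235216300 * A ^ 5 * B ^ 2 + 6928962750 * A ^ 8 := by
  subst ha hb hA hB
  simp only [hU, tU]
  ring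

theorem tcoef_14 (U V a b A B : R) (ha : a = U ^ 2 + 66 * U * V - 11 * V ^ 2) (hb : b = -(11 * U ^ 2) - 66 * U * V + V ^ 2)
    (hA : A = hU U V) (hB : B = tU U V) :
    U ^ 6 * (145422675 * a ^ 14) + V ^ 6 * (145422675 * b ^ 14) + 522 * U ^ 5 * V * (2042975 * a ^ 9 * b ^ 5 + 16343800 * a ^ 10 * b ^ 4 + 44574000 * a ^ 11 * b ^ 3 + 52003000 * a ^ 12 * b ^ 2 + 26001500 * a ^ 13 * b + 4457400 * a ^ 14) - 522 * U * V ^ 5 * (4457400 * b ^ 14 + 26001500 * a * b ^ 13 + 52003000 * a ^ 2 * b ^ 12 + 44574000 * a ^ 3 * b ^ 11 + 16343800 * a ^ 4 * b ^ 10 + 2042975 * a ^ 5 * b ^ 9) - 10005 * U ^ 4 * V ^ 2 * (4845 * a ^ 4 * b ^ 10 + 155040 * a ^ 5 * b ^ 9 + 1744200 * a ^ 6 * b ^ 8 + 9302400 * a ^ 7 * b ^ 7 + 26453700 * a ^ 8 * b ^ 6 + 42325920 * a ^ 9 * b ^ 5 + 38798760 * a ^ 10 * b ^ 4 + 20155200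 * a ^ 11 * b ^ 3 + 5668650 * a ^ 12 * b ^ 2 + 775200 * a ^ 13 * b + 38760 * a ^ 14) - 10005 * U ^ 2 * V ^ 4 * (38760 * b ^ 14 + 775200 * a * b ^ 13 + 5668650 * a ^ 2 * b ^ 12 + 20155200 * a ^ 3 * b ^ 11 + 38798760 * a ^ 4 * b ^ 10 + 42325920 * a ^ 5 * b ^ 9 + 26453700 * a ^ 6 * b ^ 8 + 9302400 * a ^ 7 * b ^ 7 + 1744200 * a ^ 8 * b ^ 6 + 155040 * a ^ 9 * b ^ 5 + 4845 * a ^ 10 * b ^ 4)
      = -43045111800 * A ^ 4 * B ^ 3 - 43190534475 * A ^ 7 * B := by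
  subst ha hb hA hB
  simp only [hU, tU]
  ring

theorem tcoef_15 (U V a b A B : R) (ha : a = U ^ 2 + 66 * U * V - 11 * V ^ 2) (hb : b = -(11 * U ^ 2) - 66 * U * V + V ^ 2)
    (hA : A = hU U V) (hB : B = tU U V) :
    U ^ 6 * (155117520 * a ^ 15) + V ^ 6 * (155117520 * b ^ 15) + 522 * U ^ 5 * V * (3268760 * a ^ 10 * b ^ 5 + 22287000 * a ^ 11 * b ^ 4 + 52003000 * a ^ 12 * b ^ 3 + 52003000 * a ^ 13 * b ^ 2 + 22287000 * a ^ 14 * b + 3268760 * a ^ 15) - 522 * U * V ^ 5 * (3268760 * b ^ 15 + 22287000 * a * b ^ 14 + 52003000 * a ^ 2 * b ^ 13 + 52003000 * a ^ 3 * b ^ 12 + 22287000 * a ^ 4 * b ^ 11 + 3268760 * a ^ 5 * b ^ 10) - 10005 * U ^ 4 * V ^ 2 * (15504 * a ^ 5 * b ^ 10 + 387600 * a ^ 6 * b ^ 9 + 3488400 * a ^ 7 * b ^ 8 + 15116400 * a ^ 8 * b ^ 7 + 35271600 * a ^ 9 * b ^ 6 + 46558512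 * a ^ 10 * b ^ 5 + 35271600 * a ^ 11 * b ^ 4 + 15116400 * a ^ 12 * b ^ 3 + 3488400 * a ^ 13 * b ^ 2 + 387600 * a ^ 14 * b + 15504 * a ^ 15) - 10005 * U ^ 2 * V ^ 4 * (15504 * b ^ 15 + 387600 * a * b ^ 14 + 3488400 * a ^ 2 * b ^ 13 + 15116400 * a ^ 3 * b ^ 12 + 35271600 * a ^ 4 * b ^ 11 + 46558512 * a ^ 5 * b ^ 10 + 35271600 * a ^ 6 * b ^ 9 + 15116400 * a ^ 7 * b ^ 8 + 3488400 * a ^ 8 * b ^ 7 + 387600 * a ^ 9 * b ^ 6 + 15504 * a ^ 10 * b ^ 5)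
      = 79420170240 * A ^ 3 * B ^ 4 + 79575287760 * A ^ 6 * B ^ 2 := by
  subst ha hb hA hB
  simp only [hU, tU]
  ring

end Coef

end Fermat.Agent.S52.H93
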