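import Fermat.Agent.S52.H93.KleinLineDefs

/-!
# S52 / E0: coefficient identities for the line identities (T, coefficients 16-23)
-/

set_option autoImplicit false

namespace Fermat.Agent.S52.H93

section Coef

variable {R : Type*} [CommRing R]

theorem tcoef_16 (U V a b A B : R) (ha : a = U ^ 2 + 66 * U * V - 11 * V ^ 2) (hb : b = -(11 * U ^ 2) - 66 * U * V + V ^ 2)
    (hA : A = hU U V) (hB : B = tU U V) :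
    U ^ 6 * (145422675 * a ^ 16) + V ^ 6 * (145422675 * b ^ 16) + 522 * U ^ 5 * V * (4457400 * a ^ 11 * b ^ 5 + 26001500 * a ^ 12 * b ^ 4 + 52003000 * a ^ 13 * b ^ 3 + 44574000 * a ^ 14 * b ^ 2 + 16343800 * a ^ 15 * b + 2042975 * a ^ 16) - 522 * U * V ^ 5 * (2042975 * b ^ 16 + 16343800 * a * b ^ 15 + 44574000 * a ^ 2 * b ^ 14 + 52003000 * a ^ 3 * b ^ 13 + 26001500 * a ^ 4 * b ^ 12 + 4457400 * a ^ 5 * b ^ 11) - 10005 * U ^ 4 * V ^ 2 * (38760 * a ^ 6 * b ^ 10 + 775200 * a ^ 7 * b ^ 9 + 5668650 * a ^ 8 * b ^ 8 + 20155200 * a ^ 9 * b ^ 7 + 38798760 * a ^ 10 * b ^ 6 + 42325920 * a ^ 11 * b ^ 5 + 26453700 * a ^ 12 * b ^ 4 + 9302400 * a ^ 13 * b ^ 3 + 1744200 * a ^ 14 * b ^ 2 + 155040 * a ^ 15 * b + 4845 * a ^ 16) - 10005 * U ^ 2 * V ^ 4 * (4845 * b ^ 16 + 155040 * a * b ^ 15 + 1744200 * a ^ 2 * b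 ^ 14 + 9302400 * a ^ 3 * b ^ 13 + 26453700 * a ^ 4 * b ^ 12 + 42325920 * a ^ 5 * b ^ 11 + 38798760 * a ^ 6 * b ^ 10 + 20155200 * a ^ 7 * b ^ 9 + 5668650 * a ^ 8 * b ^ 8 + 775200 * a ^ 9 * b ^ 7 + 38760 * a ^ 10 * b ^ 6)
      = -297825638400 * A ^ 2 * B ^ 5 - 474659611200 * A ^ 5 * B ^ 3 - 176688550125 * A ^ 8 * B := by
  subst ha hb hA hB
  simp only [hU, tU]
  ring

theorem tcoef_17 (U V a b A B : R) (ha : a = U ^ 2 + 66 * U * V - 11 * V ^ 2) (hb : b = -(11 * U ^ 2) - 66 * U * V + V ^ 2)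
    (hA : A = hU U V) (hB : B = tU U V) :
    U ^ 6 * (119759850 * a ^ 17) + V ^ 6 * (119759850 * b ^ 17) + 522 * U ^ 5 * V * (5200300 * a ^ 12 * b ^ 5 + 26001500 * a ^ 13 * b ^ 4 + 44574000 * a ^ 14 * b ^ 3 + 32687600 * a ^ 15 * b ^ 2 + 10214875 * a ^ 16 * b + 1081575 * a ^ 17) - 522 * U * V ^ 5 * (1081575 * b ^ 17 + 10214875 * a * b ^ 16 + 32687600 * a ^ 2 * b ^ 15 + 44574000 * a ^ 3 * b ^ 14 + 26001500 * a ^ 4 * b ^ 13 + 5200300 * a ^ 5 * b ^ 12) - 10005 * U ^ 4 * V ^ 2 * (77520 * a ^ 7 * b ^ 10 + 1259700 * a ^ 8 * b ^ 9 + 7558200 * a ^ 9 * b ^ 8 + 22170720 * a ^ 10 * b ^ 7 + 35271600 * a ^ 11 * b ^ 6 + 31744440 * a ^ 12 * b ^ 5 + 16279200 * a ^ 13 * b ^ 4 + 4651200 * a ^ 14 * b ^ 3 + 697680 * a ^ 15 * b ^ 2 + 48450 * a ^ 16 * b + 1140 * a ^ 17) - 10005 * U ^ 2 * V ^ 4 * (1140 * b ^ 17 +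 48450 * a * b ^ 16 + 697680 * a ^ 2 * b ^ 15 + 4651200 * a ^ 3 * b ^ 14 + 16279200 * a ^ 4 * b ^ 13 + 31744440 * a ^ 5 * b ^ 12 + 35271600 * a ^ 6 * b ^ 11 + 22170720 * a ^ 7 * b ^ 10 + 7558200 * a ^ 8 * b ^ 9 + 1259700 * a ^ 9 * b ^ 8 + 77520 * a ^ 10 * b ^ 7)
      = 700766208000 * A * B ^ 6 + 935084908800 * A ^ 4 * B ^ 4 - 77604382800 * A ^ 7 * B ^ 2 - 311803323750 * A ^ 10 := by
  subst ha hb hA hB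
  simp only [hU, tU]
  ring

theorem tcoef_18 (U V a b A B : R) (ha : a = U ^ 2 + 66 * U * V - 11 * V ^ 2) (hb : b = -(11 * U ^ 2) - 66 * U * V + V ^ 2)
    (hA : A = hU U V) (hB : B = tU U V) :
    U ^ 6 * (86493225 * a ^ 18) + V ^ 6 * (86493225 * b ^ 18) + 522 * U ^ 5 * V * (5200300 * a ^ 13 * b ^ 5 + 22287000 * a ^ 14 * b ^ 4 + 32687600 * a ^ 15 * b ^ 3 + 20429750 * a ^ 16 * b ^ 2 + 5407875 * a ^ 17 * b + 480700 * a ^ 18) - 522 * U * V ^ 5 * (480700 * b ^ 18 + 5407875 * a * b ^ 17 + 20429750 * a ^ 2 * b ^ 16 + 32687600 * a ^ 3 * b ^ 15 + 22287000 * a ^ 4 * b ^ 14 + 5200300 * a ^ 5 * b ^ 13) - 10005 * U ^ 4 * V ^ 2 * (125970 * a ^ 8 * b ^ 10 + 1679600 * a ^ 9 * b ^ 9 + 8314020 * a ^ 10 * b ^ 8 + 20155200 * a ^ 11 * b ^ 7 + 26453700 * a ^ 12 * b ^ 6 + 19535040 * a ^ 13 * b ^ 5 + 8139600 *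 a ^ 14 * b ^ 4 + 1860480 * a ^ 15 * b ^ 3 + 218025 * a ^ 16 * b ^ 2 + 11400 * a ^ 17 * b + 190 * a ^ 18) - 10005 * U ^ 2 * V ^ 4 * (190 * b ^ 18 + 11400 * a * b ^ 17 + 218025 * a ^ 2 * b ^ 16 + 1860480 * a ^ 3 * b ^ 15 + 8139600 * a ^ 4 * b ^ 14 + 19535040 * a ^ 5 * b ^ 13 + 26453700 * a ^ 6 * b ^ 12 + 20155200 * a ^ 7 * b ^ 11 + 8314020 * a ^ 8 * b ^ 10 + 1679600 * a ^ 9 * b ^ 9 + 125970 * a ^ 10 * b ^ 8)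
      = -778629120000 * B ^ 7 + 303665356800 * A ^ 3 * B ^ 5 + 2776512362400 * A ^ 6 * B ^ 3 + 1694131392375 * A ^ 9 * B := by
  subst ha hb hA hB
  simp only [hU, tU]
  ring

theorem tcoef_19 (U V a b A B : R) (ha : a = U ^ 2 + 66 * U * V - 11 * V ^ 2) (hb : b = -(11 * U ^ 2) - 66 * U * V + V ^ 2)
    (hA : A = hU U V) (hB : B = tU U V) :
    U ^ 6 * (54627300 * a ^ 19) + V ^ 6 * (54627300 * b ^ 19) + 522 * U ^ 5 * V * (4457400 * a ^ 14 * b ^ 5 + 16343800 * a ^ 15 * b ^ 4 + 20429750 * a ^ 16 * b ^ 3 + 10815750 * a ^ 17 * b ^ 2 + 2403500 * a ^ 18 * b + 177100 * a ^ 19) - 522 * U * V ^ 5 * (177100 * b ^ 19 + 2403500 * a * b ^ 18 + 10815750 * a ^ 2 * b ^ 17 + 20429750 * a ^ 3 * b ^ 16 + 16343800 * a ^ 4 * b ^ 15 + 4457400 * a ^ 5 * b ^ 14) - 10005 * U ^ 4 * V ^ 2 * (167960 * a ^ 9 * b ^ 10 +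 1847560 * a ^ 10 * b ^ 9 + 7558200 * a ^ 11 * b ^ 8 + 15116400 * a ^ 12 * b ^ 7 + 16279200 * a ^ 13 * b ^ 6 + 9767520 * a ^ 14 * b ^ 5 + 3255840 * a ^ 15 * b ^ 4 + 581400 * a ^ 16 * b ^ 3 + 51300 * a ^ 17 * b ^ 2 + 1900 * a ^ 18 * b + 20 * a ^ 19) - 10005 * U ^ 2 * V ^ 4 * (20 * b ^ 19 + 1900 * a * b ^ 18 + 51300 * a ^ 2 * b ^ 17 + 581400 * a ^ 3 * b ^ 16 + 3255840 * a ^ 4 * b ^ 15 + 9767520 * a ^ 5 * b ^ 14 + 16279200 * a ^ 6 * b ^ 13 + 15116400 * a ^ 7 * b ^ 12 + 7558200 * a ^ 8 * b ^ 11 + 1847560 * a ^ 9 * b ^ 10 + 167960 * a ^ 10 * b ^ 9)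
      = -4290656256000 * A ^ 2 * B ^ 6 - 8100765158400 * A ^ 5 * B ^ 4 - 3481840250100 * A ^ 8 * B ^ 2 + 328214025000 * A ^ 11 := by
  subst ha hb hA hB
  simp only [hU, tU]
  ring

theorem tcoef_20 (U V a b A B : R) (ha : a = U ^ 2 + 66 * U * V - 11 * V ^ 2) (hb : b = -(11 * U ^ 2) - 66 * U * V + V ^ 2)
    (hA : A = hU U V) (hB : B = tU U V) :
    U ^ 6 * (30045015 * a ^ 20) + V ^ 6 * (30045015 * b ^ 20) + 522 * U ^ 5 * V * (3268760 * a ^ 15 * b ^ 5 + 10214875 * a ^ 16 * b ^ 4 + 10815750 * a ^ 17 * b ^ 3 + 4807000 * a ^ 18 * b ^ 2 + 885500 * a ^ 19 * b + 53130 * a ^ 20) - 522 * U * V ^ 5 * (53130 * b ^ 20 + 885500 * a * b ^ 19 + 4807000 * a ^ 2 * b ^ 18 + 10815750 * a ^ 3 * b ^ 17 + 10214875 * a ^ 4 * b ^ 16 + 3268760 * a ^ 5 * b ^ 15) - 10005 * U ^ 4 * V ^ 2 * (184756 * a ^ 10 * b ^ 10 +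 1679600 * a ^ 11 * b ^ 9 + 5668650 * a ^ 12 * b ^ 8 + 9302400 * a ^ 13 * b ^ 7 + 8139600 * a ^ 14 * b ^ 6 + 3907008 * a ^ 15 * b ^ 5 + 1017450 * a ^ 16 * b ^ 4 + 136800 * a ^ 17 * b ^ 3 + 8550 * a ^ 18 * b ^ 2 + 200 * a ^ 19 * b + 1 * a ^ 20) - 10005 * U ^ 2 * V ^ 4 * (1 * b ^ 20 + 200 * a * b ^ 19 + 8550 * a ^ 2 * b ^ 18 + 136800 * a ^ 3 * b ^ 17 + 1017450 * a ^ 4 * b ^ 16 + 3907008 * a ^ 5 * b ^ 15 + 8139600 * a ^ 6 * b ^ 14 + 9302400 * a ^ 7 * b ^ 13 + 5668650 * a ^ 8 * b ^ 12 + 1679600 * a ^ 9 * b ^ 11 + 184756 * a ^ 10 * b ^ 10)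
      = 3442360320000 * A * B ^ 7 + 3892110842880 * A ^ 4 * B ^ 5 - 2424887357760 * A ^ 7 * B ^ 3 - 2874607835625 * A ^ 10 * B := by
  subst ha hb hA hB
  simp only [hU, tU]
  ring

theorem tcoef_21 (U V a b A B : R) (ha : a = U ^ 2 + 66 * U * V - 11 * V ^ 2) (hb : b = -(11 * U ^ 2) - 66 * U * V + V ^ 2)
    (hA : A = hU U V) (hB : B = tU U V) :
    U ^ 6 * (14307150 * a ^ 21) + V ^ 6 * (14307150 * b ^ 21) + 522 * U ^ 5 * V * (2042975 * a ^ 16 * b ^ 5 + 5407875 * a ^ 17 * b ^ 4 + 4807000 * a ^ 18 * b ^ 3 + 1771000 * a ^ 19 * b ^ 2 + 265650 * a ^ 20 * b + 12650 * a ^ 21) - 522 * U * V ^ 5 * (12650 * b ^ 21 + 265650 * a * b ^ 20 + 1771000 * a ^ 2 * b ^ 19 + 4807000 * a ^ 3 * b ^ 18 + 5407875 * a ^ 4 * b ^ 17 + 2042975 * a ^ 5 * b ^ 16) - 10005 * U ^ 4 * V ^ 2 * (167960 * a ^ 11 * b ^ 10 + 1259700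 * a ^ 12 * b ^ 9 + 3488400 * a ^ 13 * b ^ 8 + 4651200 * a ^ 14 * b ^ 7 + 3255840 * a ^ 15 * b ^ 6 + 1220940 * a ^ 16 * b ^ 5 + 239400 * a ^ 17 * b ^ 4 + 22800 * a ^ 18 * b ^ 3 + 900 * a ^ 19 * b ^ 2 + 10 * a ^ 20 * b) - 10005 * U ^ 2 * V ^ 4 * (10 * a * b ^ 20 + 900 * a ^ 2 * b ^ 19 + 22800 * a ^ 3 * b ^ 18 + 239400 * a ^ 4 * b ^ 17 + 1220940 * a ^ 5 * b ^ 16 + 3255840 * a ^ 6 * b ^ 15 + 4651200 * a ^ 7 * b ^ 14 + 3488400 * a ^ 8 * b ^ 13 + 1259700 * a ^ 9 * b ^ 12 + 167960 * a ^ 10 * b ^ 11)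
      = -3278438400000 * B ^ 8 - 5125838438400 * A ^ 3 * B ^ 6 - 2709129888000 * A ^ 6 * B ^ 4 - 3077188825500 * A ^ 9 * B ^ 2 - 2215444668750 * A ^ 12 := by
  subst ha hb hA hB
  simp only [hU, tU]
  ring

theorem tcoef_22 (U V a b A B : R) (ha : a = U ^ 2 + 66 * U * V - 11 * V ^ 2) (hb : b = -(11 * U ^ 2) - 66 * U * V + V ^ 2)
    (hA : A = hU U V) (hB : B = tU U V) :
    U ^ 6 * (5852925 * a ^ 22) + V ^ 6 * (5852925 * b ^ 22) + 522 * U ^ 5 * V * (1081575 * a ^ 17 * b ^ 5 + 2403500 * a ^ 18 * b ^ 4 + 1771000 * a ^ 19 * b ^ 3 + 531300 * a ^ 20 * b ^ 2 + 63250 * a ^ 21 * b + 2300 * a ^ 22) - 522 * U * V ^ 5 * (2300 * b ^ 22 + 63250 * a * b ^ 21 + 531300 * a ^ 2 * b ^ 20 + 1771000 * a ^ 3 * b ^ 19 + 2403500 * a ^ 4 * b ^ 18 + 1081575 * a ^ 5 * b ^ 17) - 10005 * U ^ 4 * V ^ 2 * (125970 * a ^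 12 * b ^ 10 + 775200 * a ^ 13 * b ^ 9 + 1744200 * a ^ 14 * b ^ 8 + 1860480 * a ^ 15 * b ^ 7 + 1017450 * a ^ 16 * b ^ 6 + 287280 * a ^ 17 * b ^ 5 + 39900 * a ^ 18 * b ^ 4 + 2400 * a ^ 19 * b ^ 3 + 45 * a ^ 20 * b ^ 2) - 10005 * U ^ 2 * V ^ 4 * (45 * a ^ 2 * b ^ 20 + 2400 * a ^ 3 * b ^ 19 + 39900 * a ^ 4 * b ^ 18 + 287280 * a ^ 5 * b ^ 17 + 1017450 * a ^ 6 * b ^ 16 + 1860480 * a ^ 7 * b ^ 15 + 1744200 * a ^ 8 * b ^ 14 + 775200 * a ^ 9 * b ^ 13 + 125970 * a ^ 10 * b ^ 12)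
      = -4573421568000 * A ^ 2 * B ^ 7 - 7701051801600 * A ^ 5 * B ^ 5 - 1724509423800 * A ^ 8 * B ^ 3 + 1403114956875 * A ^ 11 * B := by
  subst ha hb hA hB
  simp only [hU, tU]
  ring

theorem tcoef_23 (U V a b A B : R) (ha : a = U ^ 2 + 66 * U * V - 11 * V ^ 2) (hb : b = -(11 * U ^ 2) - 66 * U * V + V ^ 2)
    (hA : A = hU U V) (hB : B = tU U V) :
    U ^ 6 * (2035800 * a ^ 23) + V ^ 6 * (2035800 * b ^ 23) + 522 * U ^ 5 * V * (480700 * a ^ 18 * b ^ 5 + 885500 * a ^ 19 * b ^ 4 + 531300 * a ^ 20 * b ^ 3 + 126500 * a ^ 21 * b ^ 2 + 11500 * a ^ 22 * b + 300 * a ^ 23) - 522 * U * V ^ 5 * (300 * b ^ 23 + 11500 * a * b ^ 22 + 126500 * a ^ 2 * b ^ 21 + 531300 * a ^ 3 * b ^ 20 + 885500 * a ^ 4 * b ^ 19 + 480700 * a ^ 5 * b ^ 18) - 10005 * U ^ 4 * V ^ 2 * (77520 * a ^ 13 * b ^ 10 + 387600 * a ^ 14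 * b ^ 9 + 697680 * a ^ 15 * b ^ 8 + 581400 * a ^ 16 * b ^ 7 + 239400 * a ^ 17 * b ^ 6 + 47880 * a ^ 18 * b ^ 5 + 4200 * a ^ 19 * b ^ 4 + 120 * a ^ 20 * b ^ 3) - 10005 * U ^ 2 * V ^ 4 * (120 * a ^ 3 * b ^ 20 + 4200 * a ^ 4 * b ^ 19 + 47880 * a ^ 5 * b ^ 18 + 239400 * a ^ 6 * b ^ 17 + 581400 * a ^ 7 * b ^ 16 + 697680 * a ^ 8 * b ^ 15 + 387600 * a ^ 9 * b ^ 14 + 77520 * a ^ 10 * b ^ 13)
      = -6157762560000 * A * B ^ 8 - 30337884979200 * A ^ 4 * B ^ 6 - 49888700928000 * A ^ 7 * B ^ 4 - 33414470973000 * A ^ 10 * B ^ 2 - 7705894500000 * A ^ 13 := by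
  subst ha hb hA hB
  simp only [hU, tU]
  ring

end Coef

end Fermat.Agent.S52.H93
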