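import Fermat.Agent.S52.H93.KleinLineDefs

/-!
# S52 / E0: coefficient identities for the line identities (T, coefficients 24-30)
-/

set_option autoImplicit false

namespace Fermat.Agent.S52.H93

section Coef

variable {R : Type*} [CommRing R]

theorem tcoef_24 (U V a b A B : R) (ha : a = U ^ 2 + 66 * U * V - 11 * V ^ 2) (hb : b = -(11 * U ^ 2) - 66 * U * V + V ^ 2)
    (hA : A = hU U V) (hB : B = tU U V) :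
    U ^ 6 * (593775 * a ^ 24) + V ^ 6 * (593775 * b ^ 24) + 522 * U ^ 5 * V * (177100 * a ^ 19 * b ^ 5 + 265650 * a ^ 20 * b ^ 4 + 126500 * a ^ 21 * b ^ 3 + 23000 * a ^ 22 * b ^ 2 + 1500 * a ^ 23 * b + 25 * a ^ 24) - 522 * U * V ^ 5 * (25 * b ^ 24 + 1500 * a * b ^ 23 + 23000 * a ^ 2 * b ^ 22 + 126500 * a ^ 3 * b ^ 21 + 265650 * a ^ 4 * b ^ 20 + 177100 * a ^ 5 * b ^ 19) - 10005 * U ^ 4 * V ^ 2 * (38760 * a ^ 14 * b ^ 10 + 155040 * a ^ 15 * b ^ 9 + 218025 * a ^ 16 * b ^ 8 + 136800 * a ^ 17 * b ^ 7 + 39900 * a ^ 18 * b ^ 6 + 5040 * a ^ 19 * b ^ 5 + 210 * a ^ 20 * b ^ 4) - 10005 * U ^ 2 * V ^ 4 * (210 * a ^ 4 * b ^ 20 + 5040 * a ^ 5 * b ^ 19 + 39900 * a ^ 6 * b ^ 18 + 136800 * a ^ 7 * b ^ 17 + 218025 * a ^ 8 * b ^ 16 + 155040 * a ^ 9 * b ^ 15 + 38760 * a ^ 10 * b ^ 14)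
      = 5131468800000 * B ^ 9 + 22779445248000 * A ^ 3 * B ^ 7 + 35246094796800 * A ^ 6 * B ^ 5 + 22687218914400 * A ^ 9 * B ^ 3 + 5089101159375 * A ^ 12 * B := by
  subst ha hb hA hB
  simp only [hU, tU]
  ring

theorem tcoef_25 (U V a b A B : R) (ha : a = U ^ 2 + 66 * U * V - 11 * V ^ 2) (hb : b = -(11 * U ^ 2) - 66 * U * V + V ^ 2)
    (hA : A = hU U V) (hB : B = tU U V) :
    U ^ 6 * (142506 * a ^ 25) + V ^ 6 * (142506 * b ^ 25) + 522 * U ^ 5 * V * (53130 * a ^ 20 * b ^ 5 + 63250 * a ^ 21 * b ^ 4 + 23000 * a ^ 22 * b ^ 3 + 3000 * a ^ 23 * b ^ 2 + 125 * a ^ 24 * b + 1 * a ^ 25) - 522 * U * V ^ 5 * (1 * b ^ 25 + 125 * a * b ^ 24 + 3000 * a ^ 2 * b ^ 23 + 23000 * a ^ 3 * b ^ 22 + 63250 * a ^ 4 * b ^ 21 + 53130 * a ^ 5 * b ^ 20) - 10005 * U ^ 4 * V ^ 2 * (15504 * a ^ 15 * b ^ 10 + 48450 * a ^ 16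 * b ^ 9 + 51300 * a ^ 17 * b ^ 8 + 22800 * a ^ 18 * b ^ 7 + 4200 * a ^ 19 * b ^ 6 + 252 * a ^ 20 * b ^ 5) - 10005 * U ^ 2 * V ^ 4 * (252 * a ^ 5 * b ^ 20 + 4200 * a ^ 6 * b ^ 19 + 22800 * a ^ 7 * b ^ 18 + 51300 * a ^ 8 * b ^ 17 + 48450 * a ^ 9 * b ^ 16 + 15504 * a ^ 10 * b ^ 15)
      = -18216714240000 * A ^ 2 * B ^ 8 - 71274600677376 * A ^ 5 * B ^ 6 - 105528606261120 * A ^ 8 * B ^ 4 - 70097953635000 * A ^ 11 * B ^ 2 - 17627233668750 * A ^ 14 := by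
  subst ha hb hA hB
  simp only [hU, tU]
  ring

theorem tcoef_26 (U V a b A B : R) (ha : a = U ^ 2 + 66 * U * V - 11 * V ^ 2) (hb : b = -(11 * U ^ 2) - 66 * U * V + V ^ 2)
    (hA : A = hU U V) (hB : B = tU U V) :
    U ^ 6 * (27405 * a ^ 26) + V ^ 6 * (27405 * b ^ 26) + 522 * U ^ 5 * V * (12650 * a ^ 21 * b ^ 5 + 11500 * a ^ 22 * b ^ 4 + 3000 * a ^ 23 * b ^ 3 + 250 * a ^ 24 * b ^ 2 + 5 * a ^ 25 * b) - 522 * U * V ^ 5 * (5 * a * b ^ 25 + 250 * a ^ 2 * b ^ 24 + 3000 * a ^ 3 * b ^ 23 + 11500 * a ^ 4 * b ^ 22 + 12650 * a ^ 5 * b ^ 21) - 10005 * U ^ 4 * V ^ 2 * (4845 * a ^ 16 * b ^ 10 + 11400 * a ^ 17 * b ^ 9 + 8550 * a ^ 18 * b ^ 8 + 2400 * a ^ 19 * b ^ 7 + 210 * a ^ 20 * b ^ 6) - 10005 * U ^ 2 * V ^ 4 * (210 * a ^ 6 * b ^ 20 + 2400 * a ^ 7 * b ^ 19 + 8550 * a ^ 8 * b ^ 18 + 11400 * a ^ 9 * b ^ 17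 + 4845 * a ^ 10 * b ^ 16)
      = 41051750400000 * A * B ^ 9 + 163803539865600 * A ^ 4 * B ^ 7 + 245438120632320 * A ^ 7 * B ^ 5 + 163672057566000 * A ^ 10 * B ^ 3 + 40985726371875 * A ^ 13 * B := by
  subst ha hb hA hB
  simp only [hU, tU]
  ring

theorem tcoef_27 (U V a b A B : R) (ha : a = U ^ 2 + 66 * U * V - 11 * V ^ 2) (hb : b = -(11 * U ^ 2) - 66 * U * V + V ^ 2)
    (hA : A = hU U V) (hB : B = tU U V) :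
    U ^ 6 * (4060 * a ^ 27) + V ^ 6 * (4060 * b ^ 27) + 522 * U ^ 5 * V * (2300 * a ^ 22 * b ^ 5 + 1500 * a ^ 23 * b ^ 4 + 250 * a ^ 24 * b ^ 3 + 10 * a ^ 25 * b ^ 2) - 522 * U * V ^ 5 * (10 * a ^ 2 * b ^ 25 + 250 * a ^ 3 * b ^ 24 + 1500 * a ^ 4 * b ^ 23 + 2300 * a ^ 5 * b ^ 22) - 10005 * U ^ 4 * V ^ 2 * (1140 * a ^ 17 * b ^ 10 + 1900 * a ^ 18 * b ^ 9 + 900 * a ^ 19 * b ^ 8 + 120 * a ^ 20 * b ^ 7) - 10005 * U ^ 2 * V ^ 4 * (120 * a ^ 7 * b ^ 20 + 900 * a ^ 8 * b ^ 19 + 1900 * a ^ 9 * b ^ 18 + 1140 * a ^ 10 * b ^ 17)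
      = -30408704000000 * B ^ 10 - 111934439424000 * A ^ 3 * B ^ 8 - 143803576074240 * A ^ 6 * B ^ 6 - 63806176396800 * A ^ 9 * B ^ 4 + 8104032382500 * A ^ 12 * B ^ 2 + 9632368125000 * A ^ 15 := by
  subst ha hb hA hB
  simp only [hU, tU]
  ring

theorem tcoef_28 (U V a b A B : R) (ha : a = U ^ 2 + 66 * U * V - 11 * V ^ 2) (hb : b = -(11 * U ^ 2) - 66 * U * V + V ^ 2)
    (hA : A = hU U V) (hB : B = tU U V) :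
    U ^ 6 * (435 * a ^ 28) + V ^ 6 * (435 * b ^ 28) + 522 * U ^ 5 * V * (300 * a ^ 23 * b ^ 5 + 125 * a ^ 24 * b ^ 4 + 10 * a ^ 25 * b ^ 3) - 522 * U * V ^ 5 * (10 * a ^ 3 * b ^ 25 + 125 * a ^ 4 * b ^ 24 + 300 * a ^ 5 * b ^ 23) - 10005 * U ^ 4 * V ^ 2 * (190 * a ^ 18 * b ^ 10 + 200 * a ^ 19 * b ^ 9 + 45 * a ^ 20 * b ^ 8) - 10005 * U ^ 2 * V ^ 4 * (45 * a ^ 8 * b ^ 20 + 200 * a ^ 9 * b ^ 19 + 190 * a ^ 10 * b ^ 18)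
      = -21438136320000 * A ^ 2 * B ^ 9 - 85731449241600 * A ^ 5 * B ^ 7 - 128580522647040 * A ^ 8 * B ^ 5 - 85719228804000 * A ^ 11 * B ^ 3 - 21432019078125 * A ^ 14 * B := by
  subst ha hb hA hB
  simp only [hU, tU]
  ring

theorem tcoef_29 (U V a b A B : R) (ha : a = U ^ 2 + 66 * U * V - 11 * V ^ 2) (hb : b = -(11 * U ^ 2) - 66 * U * V + V ^ 2)
    (hA : A = hU U V) (hB : B = tU U V) :
    U ^ 6 * (30 * a ^ 29) + V ^ 6 * (30 * b ^ 29) + 522 * U ^ 5 * V * (25 * a ^ 24 * b ^ 5 + 5 * a ^ 25 * b ^ 4) - 522 * U * V ^ 5 * (5 * a ^ 4 * b ^ 25 + 25 * a ^ 5 * b ^ 24) - 10005 * U ^ 4 * V ^ 2 * (20 * a ^ 19 * b ^ 10 + 10 * a ^ 20 * b ^ 9) - 10005 * U ^ 2 * V ^ 4 * (10 * a ^ 9 * b ^ 20 + 20 * a ^ 10 * b ^ 19)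
      = -5033164800000 * A * B ^ 10 - 31344427008000 * A ^ 4 * B ^ 8 - 75042714746880 * A ^ 7 * B ^ 6 - 87394892457600 * A ^ 10 * B ^ 4 - 49873523512500 * A ^ 13 * B ^ 2 - 11210083593750 * A ^ 16 := by
  subst ha hb hA hB
  simp only [hU, tU]
  ring

theorem tcoef_30 (U V a b A B : R) (ha : a = U ^ 2 + 66 * U * V - 11 * V ^ 2) (hb : b = -(11 * U ^ 2) - 66 * U * V + V ^ 2)
    (hA : A = hU U V) (hB : B = tU U V) :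
    U ^ 6 * (1 * a ^ 30) + V ^ 6 * (1 * b ^ 30) + 522 * U ^ 5 * V * (1 * a ^ 25 * b ^ 5) - 522 * U * V ^ 5 * (1 * a ^ 5 * b ^ 25) - 10005 * U ^ 4 * V ^ 2 * (1 * a ^ 20 * b ^ 10) - 10005 * U ^ 2 * V ^ 4 * (1 * a ^ 10 * b ^ 20)
      = 3355443200000 * B ^ 11 + 17532190720000 * A ^ 3 * B ^ 9 + 36574189977600 * A ^ 6 * B ^ 7 + 38083944628224 * A ^ 9 * B ^ 5 + 19796866155000 * A ^ 12 * B ^ 3 + 4110363984375 * A ^ 15 * B := by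
  subst ha hb hA hB
  simp only [hU, tU]
  ring

end Coef

end Fermat.Agent.S52.H93
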