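import Fermat.Agent.S52.H93.KleinLineH
import Fermat.Agent.S52.H93.KleinLineT1
import Fermat.Agent.S52.H93.KleinLineT2
import Fermat.Agent.S52.H93.KleinLineT3

/-!
# S52 / E0 (copy in the `KleinAway` vocabulary): the line identities

For `w = (f_y, -f_x)` the forms `H` and `T` restricted to the line through `v` and `w v`
are universal integer polynomials in `H v`, `T v`:

* `kH_line : kH (n*x + m*kwx x y) (n*y + m*kwy x y) = kRh (kH x y) (kT x y) n m`
* `kT_line : kT (n*x + m*kwx x y) (n*y + m*kwy x y) = kSh (kH x y) (kT x y) n m`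

(the Rubin-Silverberg family with constant mod 5 representation, in homogeneous form).
The proof goes through the variables `U = x ^ 5`, `V = y ^ 5` and compares the coefficients
of `n ^ (d - k) * m ^ k` one at a time (files `KleinLineH`, `KleinLineT1-3`).
-/

set_option autoImplicit false

namespace Fermat.Agent.S52.H93

section Line

variable {R : Type*} [CommRing R]

theorem hU_line (U V n m : R) :
    hU (U * (n + m * (U ^ 2 + 66 * U * V - 11 * V ^ 2)) ^ 5)
        (V * (n + m * (-(11 * U ^ 2) - 66 * U * V + V ^ 2)) ^ 5)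
      = kRh (hU U V) (tU U V) n m := by
  generalize ha : U ^ 2 + 66 * U * V - 11 * V ^ 2 = a
  generalize hb : -(11 * U ^ 2) - 66 * U * V + V ^ 2 = b
  generalize hA : hU U V = A
  generalize hB : tU U V = B
  have h0 := hcoef_0 U V a b A B ha.symm hb.symm hA.symm hB.symm
  have h1 := hcoef_1 U V a b A B ha.symm hb.symm hA.symm hB.symm
  have h2 := hcoef_2 U V a b A B ha.symm hb.symm hA.symm hB.symm
  have h3 := hcoef_3 U V a b A B ha.symm hb.symm hA.symm hB.symm
  have h4 := hcoef_4 U V a b A B ha.symm hb.symm hA.symm hB.symm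
  have h5 := hcoef_5 U V a b A B ha.symm hb.symm hA.symm hB.symm
  have h6 := hcoef_6 U V a b A B ha.symm hb.symm hA.symm hB.symm
  have h7 := hcoef_7 U V a b A B ha.symm hb.symm hA.symm hB.symm
  have h8 := hcoef_8 U V a b A B ha.symm hb.symm hA.symm hB.symm
  have h9 := hcoef_9 U V a b A B ha.symm hb.symm hA.symm hB.symm
  have h10 := hcoef_10 U V a b A B ha.symm hb.symm hA.symm hB.symm
  have h11 := hcoef_11 U V a b A B ha.symm hb.symm hA.symm hB.symm
  have h12 := hcoef_12 U V a b A B ha.symm hb.symm hA.symm hB.symm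
  have h13 := hcoef_13 U V a b A B ha.symm hb.symm hA.symm hB.symm
  have h14 := hcoef_14 U V a b A B ha.symm hb.symm hA.symm hB.symm
  have h15 := hcoef_15 U V a b A B ha.symm hb.symm hA.symm hB.symm
  have h16 := hcoef_16 U V a b A B ha.symm hb.symm hA.symm hB.symm
  have h17 := hcoef_17 U V a b A B ha.symm hb.symm hA.symm hB.symm
  have h18 := hcoef_18 U V a b A B ha.symm hb.symm hA.symm hB.symm
  have h19 := hcoef_19 U V a b A B ha.symm hb.symm hA.symm hB.symm
  have h20 := hcoef_20 U V a b A B ha.symm hb.symm hA.symm hB.symm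
  simp only [hU, kRh]
  linear_combination (n ^ 20) * h0 + (n ^ 19 * m) * h1 + (n ^ 18 * m ^ 2) * h2 + (n ^ 17 * m ^ 3) * h3 + (n ^ 16 * m ^ 4) * h4 + (n ^ 15 * m ^ 5) * h5 + (n ^ 14 * m ^ 6) * h6 + (n ^ 13 * m ^ 7) * h7 + (n ^ 12 * m ^ 8) * h8 + (n ^ 11 * m ^ 9) * h9 + (n ^ 10 * m ^ 10) * h10 + (n ^ 9 * m ^ 11) * h11 + (n ^ 8 * m ^ 12) * h12 + (n ^ 7 * m ^ 13) * h13 + (n ^ 6 * m ^ 14) * h14 + (n ^ 5 * m ^ 15) * h15 + (n ^ 4 * m ^ 16) * h16 + (n ^ 3 * m ^ 17) * h17 + (n ^ 2 * m ^ 18) * h18 + (n * m ^ 19) * h19 + (m ^ 20) * h20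

theorem tU_line (U V n m : R) :
    tU (U * (n + m * (U ^ 2 + 66 * U * V - 11 * V ^ 2)) ^ 5)
        (V * (n + m * (-(11 * U ^ 2) - 66 * U * V + V ^ 2)) ^ 5)
      = kSh (hU U V) (tU U V) n m := by
  generalize ha : U ^ 2 + 66 * U * V - 11 * V ^ 2 = a
  generalize hb : -(11 * U ^ 2) - 66 * U * V + V ^ 2 = b
  generalize hA : hU U V = A
  generalize hB : tU U V = B
  have h0 := tcoef_0 U V a b A B ha.symm hb.symm hA.symm hB.symm
  have h1 := tcoef_1 U V a b A B ha.symm hb.symm hA.symm hB.symm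
  have h2 := tcoef_2 U V a b A B ha.symm hb.symm hA.symm hB.symm
  have h3 := tcoef_3 U V a b A B ha.symm hb.symm hA.symm hB.symm
  have h4 := tcoef_4 U V a b A B ha.symm hb.symm hA.symm hB.symm
  have h5 := tcoef_5 U V a b A B ha.symm hb.symm hA.symm hB.symm
  have h6 := tcoef_6 U V a b A B ha.symm hb.symm hA.symm hB.symm
  have h7 := tcoef_7 U V a b A B ha.symm hb.symm hA.symm hB.symm
  have h8 := tcoef_8 U V a b A B ha.symm hb.symm hA.symm hB.symm
  have h9 := tcoef_9 U V a b A B ha.symm hb.symm hA.symm hB.symm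
  have h10 := tcoef_10 U V a b A B ha.symm hb.symm hA.symm hB.symm
  have h11 := tcoef_11 U V a b A B ha.symm hb.symm hA.symm hB.symm
  have h12 := tcoef_12 U V a b A B ha.symm hb.symm hA.symm hB.symm
  have h13 := tcoef_13 U V a b A B ha.symm hb.symm hA.symm hB.symm
  have h14 := tcoef_14 U V a b A B ha.symm hb.symm hA.symm hB.symm
  have h15 := tcoef_15 U V a b A B ha.symm hb.symm hA.symm hB.symm
  have h16 := tcoef_16 U V a b A B ha.symm hb.symm hA.symm hB.symm
  have h17 := tcoef_17 U V a b A B ha.symm hb.symm hA.symm hB.symm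
  have h18 := tcoef_18 U V a b A B ha.symm hb.symm hA.symm hB.symm
  have h19 := tcoef_19 U V a b A B ha.symm hb.symm hA.symm hB.symm
  have h20 := tcoef_20 U V a b A B ha.symm hb.symm hA.symm hB.symm
  have h21 := tcoef_21 U V a b A B ha.symm hb.symm hA.symm hB.symm
  have h22 := tcoef_22 U V a b A B ha.symm hb.symm hA.symm hB.symm
  have h23 := tcoef_23 U V a b A B ha.symm hb.symm hA.symm hB.symm
  have h24 := tcoef_24 U V a b A B ha.symm hb.symm hA.symm hB.symm
  have h25 := tcoef_25 U V a b A B ha.symm hb.symm hA.symm hB.symm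
  have h26 := tcoef_26 U V a b A B ha.symm hb.symm hA.symm hB.symm
  have h27 := tcoef_27 U V a b A B ha.symm hb.symm hA.symm hB.symm
  have h28 := tcoef_28 U V a b A B ha.symm hb.symm hA.symm hB.symm
  have h29 := tcoef_29 U V a b A B ha.symm hb.symm hA.symm hB.symm
  have h30 := tcoef_30 U V a b A B ha.symm hb.symm hA.symm hB.symm
  simp only [tU, kSh]
  linear_combination (n ^ 30) * h0 + (n ^ 29 * m) * h1 + (n ^ 28 * m ^ 2) * h2 + (n ^ 27 * m ^ 3) * h3 + (n ^ 26 * m ^ 4) * h4 + (n ^ 25 * m ^ 5) * h5 + (n ^ 24 * m ^ 6) * h6 + (n ^ 23 * m ^ 7) * h7 + (n ^ 22 * m ^ 8) * h8 + (n ^ 21 * m ^ 9) * h9 + (n ^ 20 * m ^ 10) * h10 + (n ^ 19 * m ^ 11) * h11 + (n ^ 18 * m ^ 12) * h12 + (n ^ 17 * m ^ 13) * h13 + (n ^ 16 * m ^ 14) * h14 + (n ^ 15 * m ^ 15) * h15 + (n ^ 14 * m ^ 16) * h16 + (n ^ 13 * m ^ 17) * h17 + (n ^ 12 * m ^ 18) * h18 + (n ^ 11 * m ^ 19) * h19 + (n ^ 10 * m ^ 20) * h20 + (n ^ 9 * m ^ 21) * h21 + (n ^ 8 * m ^ 22) * h22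 + (n ^ 7 * m ^ 23) * h23 + (n ^ 6 * m ^ 24) * h24 + (n ^ 5 * m ^ 25) * h25 + (n ^ 4 * m ^ 26) * h26 + (n ^ 3 * m ^ 27) * h27 + (n ^ 2 * m ^ 28) * h28 + (n * m ^ 29) * h29 + (m ^ 30) * h30

theorem kH_line (x y n m : R) :
    kH (n * x + m * kwx x y) (n * y + m * kwy x y) = kRh (kH x y) (kT x y) n m := by
  rw [kH_eq_hU x y, kT_eq_tU x y, ← hU_line, kH_eq_hU, kwx_eq, kwy_eq]
  congr 1 <;> ring

theorem kT_line (x y n m : R) :
    kT (n * x + m * kwx x y) (n * y + m * kwy x y) = kSh (kH x y) (kT x y) n m := by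
  rw [kH_eq_hU x y, kT_eq_tU x y, ← tU_line, kT_eq_tU, kwx_eq, kwy_eq]
  congr 1 <;> ring

end Line

end Fermat.Agent.S52.H93
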