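import Fermat.Agent.S52.H93.KleinAway

/-!
# S52 / E0 (copy in the `KleinAway` vocabulary): definitions for the line identities

`kRh A B n m` and `kSh A B n m` are the universal integer forms with
`H (n • v + m • w v) = kRh (H v) (T v) n m` and `T (n • v + m • w v) = kSh (H v) (T v) n m`
(proved in `KleinLine.lean`).  `hU`, `tU` are `H`, `T` in the variables `U = x ^ 5`, `V = y ^ 5`.
-/

set_option autoImplicit false

namespace Fermat.Agent.S52.H93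

section Defs

variable {R : Type*} [CommRing R]

/-- The degree 20 form `H` along the line `n • v + m • w v`, as a polynomial in
`A = H v`, `B = T v`. -/
def kRh (A B n m : R) : R :=
    (1 * A) * n ^ 20
    + (-20 * B) * n ^ 19 * m
    + (-190 * A ^ 2) * n ^ 18 * m ^ 2
    + (1140 * A * B) * n ^ 17 * m ^ 3
    + (-5700 * B ^ 2 - 855 * A ^ 3) * n ^ 16 * m ^ 4
    + (-15504 * A ^ 2 * B) * n ^ 15 * m ^ 5
    + (-63840 * A * B ^ 2 - 102600 * A ^ 4) * n ^ 14 * m ^ 6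
    + (182400 * B ^ 3 + 259920 * A ^ 3 * B) * n ^ 13 * m ^ 7
    + (-1126320 * A ^ 2 * B ^ 2 - 1000350 * A ^ 5) * n ^ 12 * m ^ 8
    + (7904000 * A * B ^ 3 + 7736040 * A ^ 4 * B) * n ^ 11 * m ^ 9
    + (-15808000 * B ^ 4 - 5619744 * A ^ 3 * B ^ 2 + 10003500 * A ^ 6) * n ^ 10 * m ^ 10
    + (-54853760 * A ^ 2 * B ^ 3 - 54685800 * A ^ 5 * B) * n ^ 9 * m ^ 11
    + (37939200 * A * B ^ 4 - 7202520 * A ^ 4 * B ^ 2 - 45015750 * A ^ 7) * n ^ 8 * m ^ 12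
    + (-58368000 * B ^ 5 - 23201280 * A ^ 3 * B ^ 3 + 35089200 * A ^ 6 * B) * n ^ 7 * m ^ 13
    + (-287462400 * A ^ 2 * B ^ 4 - 495188640 * A ^ 5 * B ^ 2 - 207765000 * A ^ 8) * n ^ 6 * m ^ 14
    + (466944000 * A * B ^ 5 + 882458496 * A ^ 4 * B ^ 3 + 415530000 * A ^ 7 * B) * n ^ 5 * m ^ 15
    + (-583680000 * B ^ 6 - 1220474880 * A ^ 3 * B ^ 4 - 714711600 * A ^ 6 * B ^ 2 - 77911875 * A ^ 9) * n ^ 4 * m ^ 16
    + (-361881600 * A ^ 2 * B ^ 5 - 715080960 * A ^ 5 * B ^ 3 - 353200500 * A ^ 8 * B) * n ^ 3 * m ^ 17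
    + (-622592000 * A * B ^ 6 - 2026391040 * A ^ 4 * B ^ 4 - 2182917600 * A ^ 7 * B ^ 2 - 779118750 * A ^ 10) * n ^ 2 * m ^ 18
    + (655360000 * B ^ 7 + 2005401600 * A ^ 3 * B ^ 5 + 2044414080 * A ^ 6 * B ^ 3 + 694372500 * A ^ 9 * B) * n * m ^ 19
    + (180224000 * A ^ 2 * B ^ 6 + 544997376 * A ^ 5 * B ^ 4 + 549301500 * A ^ 8 * B ^ 2 + 184528125 * A ^ 11) * m ^ 20

/-- The degree 30 form `T` along the line `n • v + m • w v`, as a polynomial in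
`A = H v`, `B = T v`. -/
def kSh (A B n m : R) : R :=
    (1 * B) * n ^ 30
    + (30 * A ^ 2) * n ^ 29 * m
    + (-435 * A * B) * n ^ 28 * m ^ 2
    + (2900 * B ^ 2 - 1160 * A ^ 3) * n ^ 27 * m ^ 3
    + (27405 * A ^ 2 * B) * n ^ 26 * m ^ 4
    + (-46980 * A * B ^ 2 + 95526 * A ^ 4) * n ^ 25 * m ^ 5
    + (156600 * B ^ 3 - 437175 * A ^ 3 * B) * n ^ 24 * m ^ 6
    + (3915000 * A ^ 2 * B ^ 2 + 1879200 * A ^ 5) * n ^ 23 * m ^ 7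
    + (-14407200 * A * B ^ 3 - 8554275 * A ^ 4 * B) * n ^ 22 * m ^ 8
    + (32016000 * B ^ 4 + 42021000 * A ^ 3 * B ^ 2 + 24312150 * A ^ 6) * n ^ 21 * m ^ 9
    + (-216588240 * A ^ 2 * B ^ 3 - 246633255 * A ^ 5 * B) * n ^ 20 * m ^ 10
    + (1459929600 * A * B ^ 4 + 1352475900 * A ^ 4 * B ^ 2 - 162081000 * A ^ 7) * n ^ 19 * m ^ 11
    + (-2433216000 * B ^ 5 + 1612005600 * A ^ 3 * B ^ 3 + 4131714825 * A ^ 6 * B) * n ^ 18 * m ^ 12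
    + (-12044419200 * A ^ 2 * B ^ 4 - 5235216300 * A ^ 5 * B ^ 2 + 6928962750 * A ^ 8) * n ^ 17 * m ^ 13
    + (-43045111800 * A ^ 4 * B ^ 3 - 43190534475 * A ^ 7 * B) * n ^ 16 * m ^ 14
    + (79420170240 * A ^ 3 * B ^ 4 + 79575287760 * A ^ 6 * B ^ 2) * n ^ 15 * m ^ 15
    + (-297825638400 * A ^ 2 * B ^ 5 - 474659611200 * A ^ 5 * B ^ 3 - 176688550125 * A ^ 8 * B) * n ^ 14 * m ^ 16
    + (700766208000 * A * B ^ 6 + 935084908800 * A ^ 4 * B ^ 4 - 77604382800 * A ^ 7 * B ^ 2 - 311803323750 * A ^ 10) * n ^ 13 * m ^ 17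
    + (-778629120000 * B ^ 7 + 303665356800 * A ^ 3 * B ^ 5 + 2776512362400 * A ^ 6 * B ^ 3 + 1694131392375 * A ^ 9 * B) * n ^ 12 * m ^ 18
    + (-4290656256000 * A ^ 2 * B ^ 6 - 8100765158400 * A ^ 5 * B ^ 4 - 3481840250100 * A ^ 8 * B ^ 2 + 328214025000 * A ^ 11) * n ^ 11 * m ^ 19
    + (3442360320000 * A * B ^ 7 + 3892110842880 * A ^ 4 * B ^ 5 - 2424887357760 * A ^ 7 * B ^ 3 - 2874607835625 * A ^ 10 * B) * n ^ 10 * m ^ 20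
    + (-3278438400000 * B ^ 8 - 5125838438400 * A ^ 3 * B ^ 6 - 2709129888000 * A ^ 6 * B ^ 4 - 3077188825500 * A ^ 9 * B ^ 2 - 2215444668750 * A ^ 12) * n ^ 9 * m ^ 21
    + (-4573421568000 * A ^ 2 * B ^ 7 - 7701051801600 * A ^ 5 * B ^ 5 - 1724509423800 * A ^ 8 * B ^ 3 + 1403114956875 * A ^ 11 * B) * n ^ 8 * m ^ 22
    + (-6157762560000 * A * B ^ 8 - 30337884979200 * A ^ 4 * B ^ 6 - 49888700928000 * A ^ 7 * B ^ 4 - 33414470973000 * A ^ 10 * B ^ 2 - 7705894500000 * A ^ 13) * n ^ 7 * m ^ 23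
    + (5131468800000 * B ^ 9 + 22779445248000 * A ^ 3 * B ^ 7 + 35246094796800 * A ^ 6 * B ^ 5 + 22687218914400 * A ^ 9 * B ^ 3 + 5089101159375 * A ^ 12 * B) * n ^ 6 * m ^ 24
    + (-18216714240000 * A ^ 2 * B ^ 8 - 71274600677376 * A ^ 5 * B ^ 6 - 105528606261120 * A ^ 8 * B ^ 4 - 70097953635000 * A ^ 11 * B ^ 2 - 17627233668750 * A ^ 14) * n ^ 5 * m ^ 25
    + (41051750400000 * A * B ^ 9 + 163803539865600 * A ^ 4 * B ^ 7 + 245438120632320 * A ^ 7 * B ^ 5 + 163672057566000 * A ^ 10 * B ^ 3 + 40985726371875 * A ^ 13 * B) * n ^ 4 * m ^ 26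
    + (-30408704000000 * B ^ 10 - 111934439424000 * A ^ 3 * B ^ 8 - 143803576074240 * A ^ 6 * B ^ 6 - 63806176396800 * A ^ 9 * B ^ 4 + 8104032382500 * A ^ 12 * B ^ 2 + 9632368125000 * A ^ 15) * n ^ 3 * m ^ 27
    + (-21438136320000 * A ^ 2 * B ^ 9 - 85731449241600 * A ^ 5 * B ^ 7 - 128580522647040 * A ^ 8 * B ^ 5 - 85719228804000 * A ^ 11 * B ^ 3 - 21432019078125 * A ^ 14 * B) * n ^ 2 * m ^ 28
    + (-5033164800000 * A * B ^ 10 - 31344427008000 * A ^ 4 * B ^ 8 - 75042714746880 * A ^ 7 * B ^ 6 - 87394892457600 * A ^ 10 * B ^ 4 - 49873523512500 * A ^ 13 * B ^ 2 - 11210083593750 * A ^ 16) * n * m ^ 29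
    + (3355443200000 * B ^ 11 + 17532190720000 * A ^ 3 * B ^ 9 + 36574189977600 * A ^ 6 * B ^ 7 + 38083944628224 * A ^ 9 * B ^ 5 + 19796866155000 * A ^ 12 * B ^ 3 + 4110363984375 * A ^ 15 * B) * m ^ 30

/-- `H` in the variables `U = x ^ 5`, `V = y ^ 5`. -/
def hU (U V : R) : R := -(U ^ 4 + V ^ 4) + 228 * (U ^ 3 * V - U * V ^ 3) - 494 * U ^ 2 * V ^ 2

/-- `T` in the variables `U = x ^ 5`, `V = y ^ 5`. -/
def tU (U V : R) : R :=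
  U ^ 6 + V ^ 6 + 522 * (U ^ 5 * V - U * V ^ 5) - 10005 * (U ^ 4 * V ^ 2 + U ^ 2 * V ^ 4)

theorem kH_eq_hU (x y : R) : kH x y = hU (x ^ 5) (y ^ 5) := by
  simp only [kH, hU]; ring

theorem kT_eq_tU (x y : R) : kT x y = tU (x ^ 5) (y ^ 5) := by
  simp only [kT, tU]; ring

theorem kwx_eq (x y : R) :
    kwx x y = x * ((x ^ 5) ^ 2 + 66 * x ^ 5 * y ^ 5 - 11 * (y ^ 5) ^ 2) := by
  simp only [kwx]; ring

theorem kwy_eq (x y : R) :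
    kwy x y = y * (-(11 * (x ^ 5) ^ 2) - 66 * x ^ 5 * y ^ 5 + (y ^ 5) ^ 2) := by
  simp only [kwy]; ring

end Defs

end Fermat.Agent.S52.H93
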