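import Fermat.Agent.S52.H93.KleinLineDefs

/-!
# S52 / E0: coefficient identities for the line identities (H, all coefficients)
-/

set_option autoImplicit false

namespace Fermat.Agent.S52.H93

section Coef

variable {R : Type*} [CommRing R]

theorem hcoef_0 (U V a b A B : R) (ha : a = U ^ 2 + 66 * U * V - 11 * V ^ 2) (hb : b = -(11 * U ^ 2) - 66 * U * V + V ^ 2)
    (hA : A = hU U V) (hB : B = tU U V) :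
    -(U ^ 4 * (1)) - V ^ 4 * (1) + 228 * U ^ 3 * V * (1) - 228 * U * V ^ 3 * (1) - 494 * U ^ 2 * V ^ 2 * (1)
      = 1 * A := by
  subst ha hb hA hB
  simp only [hU, tU]
  ring

theorem hcoef_1 (U V a b A B : R) (ha : a = U ^ 2 + 66 * U * V - 11 * V ^ 2) (hb : b = -(11 * U ^ 2) - 66 * U * V + V ^ 2)
    (hA : A = hU U V) (hB : B = tU U V) :
    -(U ^ 4 * (20 * a)) - V ^ 4 * (20 * b) + 228 * U ^ 3 * V * (5 * b + 15 * a) - 228 * U * V ^ 3 * (15 * b + 5 * a) - 494 * U ^ 2 * V ^ 2 * (10 * b + 10 * a)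
      = -20 * B := by
  subst ha hb hA hB
  simp only [hU, tU]
  ring

theorem hcoef_2 (U V a b A B : R) (ha : a = U ^ 2 + 66 * U * V - 11 * V ^ 2) (hb : b = -(11 * U ^ 2) - 66 * U * V + V ^ 2)
    (hA : A = hU U V) (hB : B = tU U V) :
    -(U ^ 4 * (190 * a ^ 2)) - V ^ 4 * (190 * b ^ 2) + 228 * U ^ 3 * V * (10 * b ^ 2 + 75 * a * b + 105 * a ^ 2) - 228 * U * V ^ 3 * (105 * b ^ 2 + 75 * a * b + 10 * a ^ 2) - 494 * U ^ 2 * V ^ 2 * (45 * b ^ 2 + 100 * a * b + 45 * a ^ 2)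
      = -190 * A ^ 2 := by
  subst ha hb hA hB
  simp only [hU, tU]
  ring

theorem hcoef_3 (U V a b A B : R) (ha : a = U ^ 2 + 66 * U * V - 11 * V ^ 2) (hb : b = -(11 * U ^ 2) - 66 * U * V + V ^ 2)
    (hA : A = hU U V) (hB : B = tU U V) :
    -(U ^ 4 * (1140 * a ^ 3)) - V ^ 4 * (1140 * b ^ 3) + 228 * U ^ 3 * V * (10 * b ^ 3 + 150 * a * b ^ 2 + 525 * a ^ 2 * b + 455 * a ^ 3) - 228 * U * V ^ 3 * (455 * b ^ 3 + 525 * a * b ^ 2 + 150 * a ^ 2 * b + 10 * a ^ 3) - 494 * U ^ 2 * V ^ 2 * (120 * b ^ 3 + 450 * a * b ^ 2 + 450 * a ^ 2 * b + 120 * a ^ 3)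
      = 1140 * A * B := by
  subst ha hb hA hB
  simp only [hU, tU]
  ring

theorem hcoef_4 (U V a b A B : R) (ha : a = U ^ 2 + 66 * U * V - 11 * V ^ 2) (hb : b = -(11 * U ^ 2) - 66 * U * V + V ^ 2)
    (hA : A = hU U V) (hB : B = tU U V) :
    -(U ^ 4 * (4845 * a ^ 4)) - V ^ 4 * (4845 * b ^ 4) + 228 * U ^ 3 * V * (5 * b ^ 4 + 150 * a * b ^ 3 + 1050 * a ^ 2 * b ^ 2 + 2275 * a ^ 3 * b + 1365 * a ^ 4) - 228 * U * V ^ 3 * (1365 * b ^ 4 + 2275 * a * b ^ 3 + 1050 * a ^ 2 * b ^ 2 + 150 * a ^ 3 * b + 5 * a ^ 4) - 494 * U ^ 2 * V ^ 2 * (210 * b ^ 4 + 1200 * a * b ^ 3 + 2025 * a ^ 2 * b ^ 2 + 1200 * a ^ 3 * b + 210 * a ^ 4)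
      = -5700 * B ^ 2 - 855 * A ^ 3 := by
  subst ha hb hA hB
  simp only [hU, tU]
  ring

theorem hcoef_5 (U V a b A B : R) (ha : a = U ^ 2 + 66 * U * V - 11 * V ^ 2) (hb : b = -(11 * U ^ 2) - 66 * U * V + V ^ 2)
    (hA : A = hU U V) (hB : B = tU U V) :
    -(U ^ 4 * (15504 * a ^ 5)) - V ^ 4 * (15504 * b ^ 5) + 228 * U ^ 3 * V * (1 * b ^ 5 + 75 * a * b ^ 4 + 1050 * a ^ 2 * b ^ 3 + 4550 * a ^ 3 * b ^ 2 + 6825 * a ^ 4 * b + 3003 * a ^ 5) - 228 * U * V ^ 3 * (3003 * b ^ 5 + 6825 * a * b ^ 4 + 4550 * a ^ 2 * b ^ 3 + 1050 * a ^ 3 * b ^ 2 + 75 * a ^ 4 * b + 1 * a ^ 5) - 494 * U ^ 2 * V ^ 2 * (252 * b ^ 5 + 2100 * a * b ^ 4 + 5400 * a ^ 2 * b ^ 3 + 5400 * a ^ 3 * b ^ 2 + 2100 * a ^ 4 * b + 252 * a ^ 5)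
      = -15504 * A ^ 2 * B := by
  subst ha hb hA hB
  simp only [hU, tU]
  ring

theorem hcoef_6 (U V a b A B : R) (ha : a = U ^ 2 + 66 * U * V - 11 * V ^ 2) (hb : b = -(11 * U ^ 2) - 66 * U * V + V ^ 2)
    (hA : A = hU U V) (hB : B = tU U V) :
    -(U ^ 4 * (38760 * a ^ 6)) - V ^ 4 * (38760 * b ^ 6) + 228 * U ^ 3 * V * (15 * a * b ^ 5 + 525 * a ^ 2 * b ^ 4 + 4550 * a ^ 3 * b ^ 3 + 13650 * a ^ 4 * b ^ 2 + 15015 * a ^ 5 * b + 5005 * a ^ 6) - 228 * U * V ^ 3 * (5005 * b ^ 6 + 15015 * a * b ^ 5 + 13650 * a ^ 2 * b ^ 4 + 4550 * a ^ 3 * b ^ 3 + 525 * a ^ 4 * b ^ 2 + 15 * a ^ 5 * b) - 494 * U ^ 2 * V ^ 2 * (210 * b ^ 6 + 2520 * a * b ^ 5 + 9450 * a ^ 2 * b ^ 4 + 14400 * a ^ 3 * b ^ 3 + 9450 * a ^ 4 * b ^ 2 + 2520 * a ^ 5 * b + 210 * a ^ 6)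
      = -63840 * A * B ^ 2 - 102600 * A ^ 4 := by
  subst ha hb hA hB
  simp only [hU, tU]
  ring

theorem hcoef_7 (U V a b A B : R) (ha : a = U ^ 2 + 66 * U * V - 11 * V ^ 2) (hb : b = -(11 * U ^ 2) - 66 * U * V + V ^ 2)
    (hA : A = hU U V) (hB : B = tU U V) :
    -(U ^ 4 * (77520 * a ^ 7)) - V ^ 4 * (77520 * b ^ 7) + 228 * U ^ 3 * V * (105 * a ^ 2 * b ^ 5 + 2275 * a ^ 3 * b ^ 4 + 13650 * a ^ 4 * b ^ 3 + 30030 * a ^ 5 * b ^ 2 + 25025 * a ^ 6 * b + 6435 * a ^ 7) - 228 * U * V ^ 3 * (6435 * b ^ 7 + 25025 * a * b ^ 6 + 30030 * a ^ 2 * b ^ 5 + 13650 * a ^ 3 * b ^ 4 + 2275 * a ^ 4 * b ^ 3 + 105 * a ^ 5 * b ^ 2) - 494 * U ^ 2 * V ^ 2 * (120 * b ^ 7 + 2100 * a * b ^ 6 + 11340 * a ^ 2 * b ^ 5 + 25200 * a ^ 3 * b ^ 4 + 25200 * a ^ 4 * b ^ 3 + 11340 * a ^ 5 * b ^ 2 + 2100 * a ^ 6 * b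 + 120 * a ^ 7)
      = 182400 * B ^ 3 + 259920 * A ^ 3 * B := by
  subst ha hb hA hB
  simp only [hU, tU]
  ring

theorem hcoef_8 (U V a b A B : R) (ha : a = U ^ 2 + 66 * U * V - 11 * V ^ 2) (hb : b = -(11 * U ^ 2) - 66 * U * V + V ^ 2)
    (hA : A = hU U V) (hB : B = tU U V) :
    -(U ^ 4 * (125970 * a ^ 8)) - V ^ 4 * (125970 * b ^ 8) + 228 * U ^ 3 * V * (455 * a ^ 3 * b ^ 5 + 6825 * a ^ 4 * b ^ 4 + 30030 * a ^ 5 * b ^ 3 + 50050 * a ^ 6 * b ^ 2 + 32175 * a ^ 7 * b + 6435 * a ^ 8) - 228 * U * V ^ 3 * (6435 * b ^ 8 + 32175 * a * b ^ 7 + 50050 * a ^ 2 * b ^ 6 + 30030 * a ^ 3 * b ^ 5 + 6825 * a ^ 4 * b ^ 4 + 455 * a ^ 5 * b ^ 3) - 494 * U ^ 2 * V ^ 2 * (45 * b ^ 8 + 1200 * a * b ^ 7 + 9450 * a ^ 2 * b ^ 6 + 30240 * a ^ 3 * b ^ 5 + 44100 * a ^ 4 * b ^ 4 + 30240 * a ^ 5 * b ^ 3 + 9450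 * a ^ 6 * b ^ 2 + 1200 * a ^ 7 * b + 45 * a ^ 8)
      = -1126320 * A ^ 2 * B ^ 2 - 1000350 * A ^ 5 := by
  subst ha hb hA hB
  simp only [hU, tU]
  ring

theorem hcoef_9 (U V a b A B : R) (ha : a = U ^ 2 + 66 * U * V - 11 * V ^ 2) (hb : b = -(11 * U ^ 2) - 66 * U * V + V ^ 2)
    (hA : A = hU U V) (hB : B = tU U V) :
    -(U ^ 4 * (167960 * a ^ 9)) - V ^ 4 * (167960 * b ^ 9) + 228 * U ^ 3 * V * (1365 * a ^ 4 * b ^ 5 + 15015 * a ^ 5 * b ^ 4 + 50050 * a ^ 6 * b ^ 3 + 64350 * a ^ 7 * b ^ 2 + 32175 * a ^ 8 * b + 5005 * a ^ 9) - 228 * U * V ^ 3 * (5005 * b ^ 9 + 32175 * a * b ^ 8 + 64350 * a ^ 2 * b ^ 7 + 50050 * a ^ 3 * b ^ 6 + 15015 * a ^ 4 * b ^ 5 + 1365 * a ^ 5 * b ^ 4) - 494 * U ^ 2 * V ^ 2 * (10 * b ^ 9 + 450 * a * b ^ 8 + 5400 * a ^ 2 * b ^ 7 + 25200 * a ^ 3 * b ^ 6 + 52920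 * a ^ 4 * b ^ 5 + 52920 * a ^ 5 * b ^ 4 + 25200 * a ^ 6 * b ^ 3 + 5400 * a ^ 7 * b ^ 2 + 450 * a ^ 8 * b + 10 * a ^ 9)
      = 7904000 * A * B ^ 3 + 7736040 * A ^ 4 * B := by
  subst ha hb hA hB
  simp only [hU, tU]
  ring

theorem hcoef_10 (U V a b A B : R) (ha : a = U ^ 2 + 66 * U * V - 11 * V ^ 2) (hb : b = -(11 * U ^ 2) - 66 * U * V + V ^ 2)
    (hA : A = hU U V) (hB : B = tU U V) :
    -(U ^ 4 * (184756 * a ^ 10)) - V ^ 4 * (184756 * b ^ 10) + 228 * U ^ 3 * V * (3003 * a ^ 5 * b ^ 5 + 25025 * a ^ 6 * b ^ 4 + 64350 * a ^ 7 * b ^ 3 + 64350 * a ^ 8 * b ^ 2 + 25025 * a ^ 9 * b + 3003 * a ^ 10) - 228 * U * V ^ 3 * (3003 * b ^ 10 + 25025 * a * b ^ 9 + 64350 * a ^ 2 * b ^ 8 + 64350 * a ^ 3 * b ^ 7 + 25025 * a ^ 4 * b ^ 6 + 3003 * a ^ 5 * b ^ 5) - 494 * U ^ 2 * V ^ 2 * (1 * b ^ 10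 + 100 * a * b ^ 9 + 2025 * a ^ 2 * b ^ 8 + 14400 * a ^ 3 * b ^ 7 + 44100 * a ^ 4 * b ^ 6 + 63504 * a ^ 5 * b ^ 5 + 44100 * a ^ 6 * b ^ 4 + 14400 * a ^ 7 * b ^ 3 + 2025 * a ^ 8 * b ^ 2 + 100 * a ^ 9 * b + 1 * a ^ 10)
      = -15808000 * B ^ 4 - 5619744 * A ^ 3 * B ^ 2 + 10003500 * A ^ 6 := by
  subst ha hb hA hB
  simp only [hU, tU]
  ring

theorem hcoef_11 (U V a b A B : R) (ha : a = U ^ 2 + 66 * U * V - 11 * V ^ 2) (hb : b = -(11 * U ^ 2) - 66 * U * V + V ^ 2)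
    (hA : A = hU U V) (hB : B = tU U V) :
    -(U ^ 4 * (167960 * a ^ 11)) - V ^ 4 * (167960 * b ^ 11) + 228 * U ^ 3 * V * (5005 * a ^ 6 * b ^ 5 + 32175 * a ^ 7 * b ^ 4 + 64350 * a ^ 8 * b ^ 3 + 50050 * a ^ 9 * b ^ 2 + 15015 * a ^ 10 * b + 1365 * a ^ 11) - 228 * U * V ^ 3 * (1365 * b ^ 11 + 15015 * a * b ^ 10 + 50050 * a ^ 2 * b ^ 9 + 64350 * a ^ 3 * b ^ 8 + 32175 * a ^ 4 * b ^ 7 + 5005 * a ^ 5 * b ^ 6) - 494 * U ^ 2 * V ^ 2 * (10 * a * b ^ 10 + 450 * a ^ 2 * b ^ 9 + 5400 * a ^ 3 * b ^ 8 + 25200 * a ^ 4 * b ^ 7 + 52920 * a ^ 5 * b ^ 6 + 52920 * a ^ 6 * b ^ 5 + 25200 * a ^ 7 * b ^ 4 + 5400 * a ^ 8 * b ^ 3 + 450 * a ^ 9 * b ^ 2 + 10 * a ^ 10 * b)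
      = -54853760 * A ^ 2 * B ^ 3 - 54685800 * A ^ 5 * B := by
  subst ha hb hA hB
  simp only [hU, tU]
  ring

theorem hcoef_12 (U V a b A B : R) (ha : a = U ^ 2 + 66 * U * V - 11 * V ^ 2) (hb : b = -(11 * U ^ 2) - 66 * U * V + V ^ 2)
    (hA : A = hU U V) (hB : B = tU U V) :
    -(U ^ 4 * (125970 * a ^ 12)) - V ^ 4 * (125970 * b ^ 12) + 228 * U ^ 3 * V * (6435 * a ^ 7 * b ^ 5 + 32175 * a ^ 8 * b ^ 4 + 50050 * a ^ 9 * b ^ 3 + 30030 * a ^ 10 * b ^ 2 + 6825 * a ^ 11 * b + 455 * a ^ 12) - 228 * U * V ^ 3 * (455 * b ^ 12 + 6825 * a * b ^ 11 + 30030 * a ^ 2 * b ^ 10 + 50050 * a ^ 3 * b ^ 9 + 32175 * a ^ 4 * b ^ 8 + 6435 * a ^ 5 * b ^ 7) - 494 * U ^ 2 * V ^ 2 * (45 * a ^ 2 * b ^ 10 + 1200 * a ^ 3 * b ^ 9 + 9450 * a ^ 4 * b ^ 8 + 30240 * a ^ 5 * b ^ 7 + 44100 * a ^ 6 * b ^ 6 + 30240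 * a ^ 7 * b ^ 5 + 9450 * a ^ 8 * b ^ 4 + 1200 * a ^ 9 * b ^ 3 + 45 * a ^ 10 * b ^ 2)
      = 37939200 * A * B ^ 4 - 7202520 * A ^ 4 * B ^ 2 - 45015750 * A ^ 7 := by
  subst ha hb hA hB
  simp only [hU, tU]
  ring

theorem hcoef_13 (U V a b A B : R) (ha : a = U ^ 2 + 66 * U * V - 11 * V ^ 2) (hb : b = -(11 * U ^ 2) - 66 * U * V + V ^ 2)
    (hA : A = hU U V) (hB : B = tU U V) :
    -(U ^ 4 * (77520 * a ^ 13)) - V ^ 4 * (77520 * b ^ 13) + 228 * U ^ 3 * V * (6435 * a ^ 8 * b ^ 5 + 25025 * a ^ 9 * b ^ 4 + 30030 * a ^ 10 * b ^ 3 + 13650 * a ^ 11 * b ^ 2 + 2275 * a ^ 12 * b + 105 * a ^ 13) - 228 * U * V ^ 3 * (105 * b ^ 13 + 2275 * a * b ^ 12 + 13650 * a ^ 2 * b ^ 11 + 30030 * a ^ 3 * b ^ 10 + 25025 * a ^ 4 * b ^ 9 + 6435 * a ^ 5 * b ^ 8) - 494 * U ^ 2 * V ^ 2 * (120 * a ^ 3 * b ^ 10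 + 2100 * a ^ 4 * b ^ 9 + 11340 * a ^ 5 * b ^ 8 + 25200 * a ^ 6 * b ^ 7 + 25200 * a ^ 7 * b ^ 6 + 11340 * a ^ 8 * b ^ 5 + 2100 * a ^ 9 * b ^ 4 + 120 * a ^ 10 * b ^ 3)
      = -58368000 * B ^ 5 - 23201280 * A ^ 3 * B ^ 3 + 35089200 * A ^ 6 * B := by
  subst ha hb hA hB
  simp only [hU, tU]
  ring

theorem hcoef_14 (U V a b A B : R) (ha : a = U ^ 2 + 66 * U * V - 11 * V ^ 2) (hb : b = -(11 * U ^ 2) - 66 * U * V + V ^ 2)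
    (hA : A = hU U V) (hB : B = tU U V) :
    -(U ^ 4 * (38760 * a ^ 14)) - V ^ 4 * (38760 * b ^ 14) + 228 * U ^ 3 * V * (5005 * a ^ 9 * b ^ 5 + 15015 * a ^ 10 * b ^ 4 + 13650 * a ^ 11 * b ^ 3 + 4550 * a ^ 12 * b ^ 2 + 525 * a ^ 13 * b + 15 * a ^ 14) - 228 * U * V ^ 3 * (15 * b ^ 14 + 525 * a * b ^ 13 + 4550 * a ^ 2 * b ^ 12 + 13650 * a ^ 3 * b ^ 11 + 15015 * a ^ 4 * b ^ 10 + 5005 * a ^ 5 * b ^ 9) - 494 * U ^ 2 * V ^ 2 * (210 * a ^ 4 * b ^ 10 + 2520 * a ^ 5 * b ^ 9 + 9450 * a ^ 6 * b ^ 8 + 14400 * a ^ 7 * b ^ 7 + 9450 * a ^ 8 * b ^ 6 + 2520 * a ^ 9 * b ^ 5 + 210 * a ^ 10 * b ^ 4)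
      = -287462400 * A ^ 2 * B ^ 4 - 495188640 * A ^ 5 * B ^ 2 - 207765000 * A ^ 8 := by
  subst ha hb hA hB
  simp only [hU, tU]
  ring

theorem hcoef_15 (U V a b A B : R) (ha : a = U ^ 2 + 66 * U * V - 11 * V ^ 2) (hb : b = -(11 * U ^ 2) - 66 * U * V + V ^ 2)
    (hA : A = hU U V) (hB : B = tU U V) :
    -(U ^ 4 * (15504 * a ^ 15)) - V ^ 4 * (15504 * b ^ 15) + 228 * U ^ 3 * V * (3003 * a ^ 10 * b ^ 5 + 6825 * a ^ 11 * b ^ 4 + 4550 * a ^ 12 * b ^ 3 + 1050 * a ^ 13 * b ^ 2 + 75 * a ^ 14 * b + 1 * a ^ 15) - 228 * U * V ^ 3 * (1 * b ^ 15 + 75 * a * b ^ 14 + 1050 * a ^ 2 * b ^ 13 + 4550 * a ^ 3 * b ^ 12 + 6825 * a ^ 4 * b ^ 11 + 3003 * a ^ 5 * b ^ 10) - 494 * U ^ 2 * V ^ 2 * (252 * a ^ 5 * b ^ 10 + 2100 * a ^ 6 * b ^ 9 + 5400 * a ^ 7 * b ^ 8 + 5400 * a ^ 8 * b ^ 7 + 2100 * a ^ 9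 * b ^ 6 + 252 * a ^ 10 * b ^ 5)
      = 466944000 * A * B ^ 5 + 882458496 * A ^ 4 * B ^ 3 + 415530000 * A ^ 7 * B := by
  subst ha hb hA hB
  simp only [hU, tU]
  ring

theorem hcoef_16 (U V a b A B : R) (ha : a = U ^ 2 + 66 * U * V - 11 * V ^ 2) (hb : b = -(11 * U ^ 2) - 66 * U * V + V ^ 2)
    (hA : A = hU U V) (hB : B = tU U V) :
    -(U ^ 4 * (4845 * a ^ 16)) - V ^ 4 * (4845 * b ^ 16) + 228 * U ^ 3 * V * (1365 * a ^ 11 * b ^ 5 + 2275 * a ^ 12 * b ^ 4 + 1050 * a ^ 13 * b ^ 3 + 150 * a ^ 14 * b ^ 2 + 5 * a ^ 15 * b) - 228 * U * V ^ 3 * (5 * a * b ^ 15 + 150 * a ^ 2 * b ^ 14 + 1050 * a ^ 3 * b ^ 13 + 2275 * a ^ 4 * b ^ 12 + 1365 * a ^ 5 * b ^ 11) - 494 * U ^ 2 * V ^ 2 * (210 * a ^ 6 * b ^ 10 + 1200 * a ^ 7 * b ^ 9 + 2025 * a ^ 8 * b ^ 8 + 1200 * a ^ 9 * b ^ 7 + 210 * a ^ 10 *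 b ^ 6)
      = -583680000 * B ^ 6 - 1220474880 * A ^ 3 * B ^ 4 - 714711600 * A ^ 6 * B ^ 2 - 77911875 * A ^ 9 := by
  subst ha hb hA hB
  simp only [hU, tU]
  ring

theorem hcoef_17 (U V a b A B : R) (ha : a = U ^ 2 + 66 * U * V - 11 * V ^ 2) (hb : b = -(11 * U ^ 2) - 66 * U * V + V ^ 2)
    (hA : A = hU U V) (hB : B = tU U V) :
    -(U ^ 4 * (1140 * a ^ 17)) - V ^ 4 * (1140 * b ^ 17) + 228 * U ^ 3 * V * (455 * a ^ 12 * b ^ 5 + 525 * a ^ 13 * b ^ 4 + 150 * a ^ 14 * b ^ 3 + 10 * a ^ 15 * b ^ 2) - 228 * U * V ^ 3 * (10 * a ^ 2 * b ^ 15 + 150 * a ^ 3 * b ^ 14 + 525 * a ^ 4 * b ^ 13 + 455 * a ^ 5 * b ^ 12) - 494 * U ^ 2 * V ^ 2 * (120 * a ^ 7 * b ^ 10 + 450 * a ^ 8 * b ^ 9 + 450 * a ^ 9 * b ^ 8 + 120 * a ^ 10 * b ^ 7)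
      = -361881600 * A ^ 2 * B ^ 5 - 715080960 * A ^ 5 * B ^ 3 - 353200500 * A ^ 8 * B := by
  subst ha hb hA hB
  simp only [hU, tU]
  ring

theorem hcoef_18 (U V a b A B : R) (ha : a = U ^ 2 + 66 * U * V - 11 * V ^ 2) (hb : b = -(11 * U ^ 2) - 66 * U * V + V ^ 2)
    (hA : A = hU U V) (hB : B = tU U V) :
    -(U ^ 4 * (190 * a ^ 18)) - V ^ 4 * (190 * b ^ 18) + 228 * U ^ 3 * V * (105 * a ^ 13 * b ^ 5 + 75 * a ^ 14 * b ^ 4 + 10 * a ^ 15 * b ^ 3) - 228 * U * V ^ 3 * (10 * a ^ 3 * b ^ 15 + 75 * a ^ 4 * b ^ 14 + 105 * a ^ 5 * b ^ 13) - 494 * U ^ 2 * V ^ 2 * (45 * a ^ 8 * b ^ 10 + 100 * a ^ 9 * b ^ 9 + 45 * a ^ 10 * b ^ 8)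
      = -622592000 * A * B ^ 6 - 2026391040 * A ^ 4 * B ^ 4 - 2182917600 * A ^ 7 * B ^ 2 - 779118750 * A ^ 10 := by
  subst ha hb hA hB
  simp only [hU, tU]
  ring

theorem hcoef_19 (U V a b A B : R) (ha : a = U ^ 2 + 66 * U * V - 11 * V ^ 2) (hb : b = -(11 * U ^ 2) - 66 * U * V + V ^ 2)
    (hA : A = hU U V) (hB : B = tU U V) :
    -(U ^ 4 * (20 * a ^ 19)) - V ^ 4 * (20 * b ^ 19) + 228 * U ^ 3 * V * (15 * a ^ 14 * b ^ 5 + 5 * a ^ 15 * b ^ 4) - 228 * U * V ^ 3 * (5 * a ^ 4 * b ^ 15 + 15 * a ^ 5 * b ^ 14) - 494 * U ^ 2 * V ^ 2 * (10 * a ^ 9 * b ^ 10 + 10 * a ^ 10 * b ^ 9)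
      = 655360000 * B ^ 7 + 2005401600 * A ^ 3 * B ^ 5 + 2044414080 * A ^ 6 * B ^ 3 + 694372500 * A ^ 9 * B := by
  subst ha hb hA hB
  simp only [hU, tU]
  ring

theorem hcoef_20 (U V a b A B : R) (ha : a = U ^ 2 + 66 * U * V - 11 * V ^ 2) (hb : b = -(11 * U ^ 2) - 66 * U * V + V ^ 2)
    (hA : A = hU U V) (hB : B = tU U V) :
    -(U ^ 4 * (1 * a ^ 20)) - V ^ 4 * (1 * b ^ 20) + 228 * U ^ 3 * V * (1 * a ^ 15 * b ^ 5) - 228 * U * V ^ 3 * (1 * a ^ 5 * b ^ 15) - 494 * U ^ 2 * V ^ 2 * (1 * a ^ 10 * b ^ 10)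
      = 180224000 * A ^ 2 * B ^ 6 + 544997376 * A ^ 5 * B ^ 4 + 549301500 * A ^ 8 * B ^ 2 + 184528125 * A ^ 11 := by
  subst ha hb hA hB
  simp only [hU, tU]
  ring

end Coef

end Fermat.Agent.S52.H93
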